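/-
PROJECT R (S43), THE EXIT N6 (helper1), brick (ASSOC): **A CHARACTERISTIC-ZERO PRIME OF THE HECKE
ALGEBRA HAS A NON-ZERO EIGENVECTOR IN THE HECKE MODULE ITSELF.**  Mathlib only.

`O` a domain, `T` a noetherian `O`-algebra integral over `O`, `M` a finite faithful `T`-module,
`𝔭` a prime of `T` with `𝔭 ∩ O = ⊥`.  Then `𝔭` is a minimal prime of `T` (incomparability), hence an
associated prime of `M`: there is `x ≠ 0` in `M` whose annihilator is `𝔭`
(`exists_ne_zero_smul_eq_zero_iff`).  If moreover `M` has no `O`-torsion, then the `𝔭`-torsion of `M`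
has no `T ⧸ 𝔭`-torsion (`eq_zero_of_smul_eq_zero`).
-/
import Mathlib

set_option autoImplicit false
set_option linter.unusedSectionVars false

namespace Fermat.Agent.S43.Exit.Assoc

variable {O : Type*} [CommRing O] {T : Type*} [CommRing T] [Algebra O T]
  {M : Type*} [AddCommGroup M] [Module T M]

/-- if every non-zero element of `O` divides a power of `π`, a prime not containing `π` has trivial
contraction to `O` -/
theorem comap_eq_bot_of_notMem (π : O) (hπ : ∀ c : O, c ≠ 0 → ∃ n : ℕ, c ∣ π ^ n)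
    (𝔭 : Ideal T) [𝔭.IsPrime] (h : algebraMap O T π ∉ 𝔭) : 𝔭.comap (algebraMap O T) = ⊥ := by
  rw [eq_bot_iff]
  intro c hc
  rw [Ideal.mem_bot]
  by_contra hc0
  obtain ⟨n, b, hb⟩ := hπ c hc0
  apply h
  have h1 : algebraMap O T π ^ n ∈ 𝔭 := by
    rw [← map_pow, hb, map_mul]
    exact 𝔭.mul_mem_right _ (Ideal.mem_comap.mp hc)
  exact Ideal.IsPrime.mem_of_pow_mem inferInstance n h1

/-- a prime of an integral extension with trivial contraction is a minimal prime -/
theorem mem_minimalPrimes_of_comap_eq_bot [Algebra.IsIntegral O T] (𝔭 : Ideal T) [𝔭.IsPrime]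
    (h𝔭 : 𝔭.comap (algebraMap O T) = ⊥) : 𝔭 ∈ (⊥ : Ideal T).minimalPrimes := by
  refine ⟨⟨inferInstance, bot_le⟩, fun q hq hq𝔭 => ?_⟩
  by_contra hne
  have hlt : q < 𝔭 := lt_of_le_not_ge hq𝔭 hne
  have := hq.1
  have h1 := Ideal.IsIntegral.comap_lt_comap (R := O) hlt
  rw [h𝔭] at h1
  exact not_lt_bot h1

/-- **(ASSOC)**: a non-zero element of `M` whose annihilator is `𝔭` -/
theorem exists_ne_zero_smul_eq_zero_iff [Algebra.IsIntegral O T] [IsNoetherianRing T]
    [Module.Finite T M] (hfaith : ∀ a : T, (∀ v : M, a • v = 0) → a = 0)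
    (𝔭 : Ideal T) [𝔭.IsPrime] (h𝔭 : 𝔭.comap (algebraMap O T) = ⊥) :
    ∃ x : M, x ≠ 0 ∧ ∀ a : T, a • x = 0 ↔ a ∈ 𝔭 := by
  have hann : Module.annihilator T M = ⊥ := by
    rw [eq_bot_iff]
    intro a ha
    rw [Ideal.mem_bot]
    exact hfaith a fun v => Module.mem_annihilator.mp ha v
  have h1 : 𝔭 ∈ (Module.annihilator T M).minimalPrimes := by
    rw [hann]
    exact mem_minimalPrimes_of_comap_eq_bot (O := O) 𝔭 h𝔭
  have h2 : IsAssociatedPrime 𝔭 M :=
    Module.associatedPrimes.minimalPrimes_annihilator_subset_associatedPrimes T M h1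
  rw [isAssociatedPrime_iff] at h2
  obtain ⟨-, x, hx⟩ := h2
  have hmem : ∀ a : T, a • x = 0 ↔ a ∈ 𝔭 := fun a => by
    rw [hx, Submodule.mem_colon_singleton, Submodule.mem_bot]
  refine ⟨x, ?_, hmem⟩
  intro hx0
  have : (1 : T) ∈ 𝔭 := (hmem 1).mp (by rw [hx0, smul_zero])
  exact (Ideal.IsPrime.ne_top inferInstance) ((Ideal.eq_top_iff_one 𝔭).mpr this)

/-- the `𝔭`-torsion of a module without `O`-torsion has no `T ⧸ 𝔭`-torsion -/
theorem eq_zero_of_smul_eq_zero [Nontrivial O] [Algebra.IsIntegral O T]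
    (hO : ∀ (c : O) (v : M), c ≠ 0 → algebraMap O T c • v = 0 → v = 0)
    (𝔭 : Ideal T) [𝔭.IsPrime] (a : T) (ha : a ∉ 𝔭) (v : M) (hv : ∀ b ∈ 𝔭, b • v = 0)
    (hav : a • v = 0) : v = 0 := by
  -- the annihilator of `v`
  let I : Ideal T :=
    { carrier := {b | b • v = 0}
      add_mem' := by
        intro b b' hb hb'
        show (b + b') • v = 0
        rw [add_smul, hb, hb', add_zero]
      zero_mem' := zero_smul T v
      smul_mem' := by
        intro b b' hb'
        show (b • b') • v = 0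
        rw [smul_eq_mul, mul_smul, hb', smul_zero] }
  have h𝔭I : 𝔭 ≤ I := fun b hb => hv b hb
  have : Algebra.IsIntegral O (T ⧸ 𝔭) :=
    ⟨fun y => by
      obtain ⟨b, rfl⟩ := Ideal.Quotient.mk_surjective y
      exact (Algebra.IsIntegral.isIntegral (R := O) b).map (Ideal.Quotient.mkₐ O 𝔭)⟩
  have ha0 : Ideal.Quotient.mk 𝔭 a ≠ 0 := fun h => ha (Ideal.Quotient.eq_zero_iff_mem.mp h)
  have hamem : Ideal.Quotient.mk 𝔭 a ∈ I.map (Ideal.Quotient.mk 𝔭) :=
    Ideal.mem_map_of_mem _ hav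
  have h1 := Ideal.comap_ne_bot_of_integral_mem (R := O) ha0 hamem
    (Algebra.IsIntegral.isIntegral _)
  obtain ⟨c, hc, hc0⟩ := Submodule.exists_mem_ne_zero_of_ne_bot h1
  rw [Ideal.mem_comap] at hc
  have h2 : algebraMap O T c ∈ I := by
    have h3 : algebraMap O (T ⧸ 𝔭) c = Ideal.Quotient.mk 𝔭 (algebraMap O T c) := rfl
    rw [h3, Ideal.mem_map_iff_of_surjective _ Ideal.Quotient.mk_surjective] at hc
    obtain ⟨b, hb, hbc⟩ := hc
    have h4 : algebraMap O T c - b ∈ 𝔭 := by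
      rw [← Ideal.Quotient.eq_zero_iff_mem, map_sub, hbc, sub_self]
    have h5 := I.add_mem (h𝔭I h4) hb
    rwa [sub_add_cancel] at h5
  exact hO c v hc0 h2

end Fermat.Agent.S43.Exit.Assoc
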