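/-
PROJECT R (S43), THE EXIT N6 (helper1), brick (DESC): **FROM A CHARACTERISTIC-ZERO EIGENVECTOR IN
`R ⊗ T_p J₀(N)` TO A TATE VECTOR WHOSE FIRST COORDINATE IS A NON-ZERO EIGENVECTOR IN `J₀(N)[p]`.**

`R` ANY domain which is a torsion-free `ℤ_p`-algebra, `𝔪` a proper ideal of `R` containing `p`,
`w ≠ 0` in `R ⊗ T_p J₀(N)` with `T_r w = θ r • w` for the primes `r ∉ S` (`S ⊇` primes of `N`),
`a : ℕ → ℤ` with `θ r ≡ a r` modulo `𝔪`.  Then there is a Tate vector `x ∈ T_p J₀(N)` with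
`x.1 1 ≠ 0` and `T_r (x.1 1) = a r • x.1 1` for all primes `r ∉ S`.

Twin of main's `S44/Ent/Eigen.exists_eigen_tate`, the eigen-character of a cusp form being replaced
by the eigen-character of the characteristic-zero eigenvector `w`: `I := (p, T_r - a r)` is a proper
ideal of the Hecke algebra `𝕋` (its elements act on `w` through scalars of `𝔪`, and `w ≠ 0` in a
torsion-free module); `S44/Ent/Theta.exists_theta` (faithfulness) + `S44/Ent/Socle` give `y ≠ 0` in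
`T_p J / p^{n'}` killed by `I`.  No discrete valuation ring, no normalisation, no reduction of `w`.
-/
import Fermat.Agent.S44.Ent.Eigen
import Fermat.Agent.S30.Padic.Assembly

set_option autoImplicit false
set_option linter.unusedSectionVars false
set_option linter.unusedVariables false
set_option linter.style.haveILetI false

noncomputable section

namespace Fermat.Agent.S43.Exit.Desc

open TensorProduct CongruenceSubgroup ModularCurve CuspForm ModularFormClass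
open Fermat.Agent.S30.Padic.TateModule Fermat.Agent.S30.Padic.Assembly
open Fermat.Agent.S30.Arith.TateInputs
open Fermat.Agent.S33.KP.LevelFrame Fermat.Agent.S33.KP.Level

variable {p : ℕ} [Fact p.Prime] {N : ℕ} [NeZero N]

/-- every element of the Hecke algebra acts on a simultaneous eigenvector of the `T_r` in
`R ⊗ T_p J₀(N)` through a scalar -/
theorem exists_smul_eq (R : Type*) [CommRing R] [Algebra ℤ_[p] R] (S : Finset ℕ)
    (hNS : ∀ q : ℕ, q.Prime → q ∣ N → q ∈ S)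
    (θ : heckeAlgebra N 2 (↑S : Set ℕ) →+* Module.End ℤ_[p] (Tp p (JZero N)))
    (hθT : ∀ (ℓ : ℕ) (hℓ : ℓ.Prime) (hℓN : ¬ ℓ ∣ N) (hℓS : ℓ ∉ (↑S : Set ℕ)),
      θ (heckeAlgebra.T hℓ hℓN hℓS) = Tp.mapEnd (heckeEnd N (⟨ℓ, hℓ⟩ : Nat.Primes)))
    (θR : ℕ → R) (w : R ⊗[ℤ_[p]] Tp p (JZero N))
    (heig : ∀ (ℓ : ℕ) (hℓ : ℓ.Prime), ℓ ∉ S →
      opVHom p R (JZero N) (heckeEnd N (⟨ℓ, hℓ⟩ : Nat.Primes)) w = θR ℓ • w)
    (t : heckeAlgebra N 2 (↑S : Set ℕ)) : ∃ c : R, (θ t).baseChange R w = c • w := by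
  obtain ⟨t, ht⟩ := t
  induction ht using Algebra.adjoin_induction with
  | mem t ht =>
    rcases ht with ⟨ℓ, hℓ, hℓN, hℓS, rfl⟩ | ⟨q, hqN, hq, hqS, rfl⟩
    · refine ⟨θR ℓ, ?_⟩
      have h1 : (⟨heckeTLin 2 hℓ hℓN, Algebra.subset_adjoin (Or.inl ⟨ℓ, hℓ, hℓN, hℓS, rfl⟩)⟩ :
          heckeAlgebra N 2 (↑S : Set ℕ)) = heckeAlgebra.T hℓ hℓN hℓS := rfl
      rw [h1, hθT, ← opVHom_apply]
      exact heig ℓ hℓ (by simpa using hℓS)
    · exact absurd (Finset.mem_coe.mpr (hNS q hq hqN)) hqS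
  | algebraMap m =>
    refine ⟨(m : R), ?_⟩
    have h1 : (⟨algebraMap ℤ _ m, Subalgebra.algebraMap_mem _ m⟩ :
        heckeAlgebra N 2 (↑S : Set ℕ)) = ((m : ℤ) : heckeAlgebra N 2 (↑S : Set ℕ)) := by
      apply Subtype.ext
      simp [Algebra.algebraMap_eq_smul_one]
    rw [h1, map_intCast]
    have h2 : ((m : Module.End ℤ_[p] (Tp p (JZero N)))).baseChange R =
        ((m : R) • (1 : Module.End R (R ⊗[ℤ_[p]] Tp p (JZero N)))) := by
      refine TensorProduct.AlgebraTensorModule.curry_injective ?_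
      refine LinearMap.ext fun b => LinearMap.ext fun x => ?_
      simp [LinearMap.baseChange_tmul, TensorProduct.tmul_smul, TensorProduct.smul_tmul']
    rw [h2, LinearMap.smul_apply, Module.End.one_apply]
  | add s t hs ht ihs iht =>
    obtain ⟨a, ha⟩ := ihs
    obtain ⟨b, hb⟩ := iht
    refine ⟨a + b, ?_⟩
    have h1 : (⟨s + t, Subalgebra.add_mem _ hs ht⟩ : heckeAlgebra N 2 (↑S : Set ℕ)) =
        ⟨s, hs⟩ + ⟨t, ht⟩ := rfl
    rw [h1, map_add, LinearMap.baseChange_add, LinearMap.add_apply, ha, hb, add_smul]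
  | mul s t hs ht ihs iht =>
    obtain ⟨a, ha⟩ := ihs
    obtain ⟨b, hb⟩ := iht
    refine ⟨a * b, ?_⟩
    have h1 : (⟨s * t, Subalgebra.mul_mem _ hs ht⟩ : heckeAlgebra N 2 (↑S : Set ℕ)) =
        ⟨s, hs⟩ * ⟨t, ht⟩ := rfl
    rw [h1, map_mul, Module.End.mul_eq_comp, LinearMap.baseChange_comp, LinearMap.comp_apply, hb,
      map_smul, ha, smul_smul, mul_comm]

/-- the generators of the ideal `(p, T_ℓ - a ℓ : ℓ ∉ S)` of the Hecke algebra -/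
def genSet (p N : ℕ) [NeZero N] (S : Finset ℕ) (a : ℕ → ℤ) : Set (heckeAlgebra N 2 (↑S : Set ℕ)) :=
  {t | t = (p : heckeAlgebra N 2 (↑S : Set ℕ)) ∨
    ∃ (ℓ : ℕ) (hℓ : ℓ.Prime) (hℓN : ¬ ℓ ∣ N) (hℓS : ℓ ∉ (↑S : Set ℕ)),
      t = heckeAlgebra.T hℓ hℓN hℓS - ((a ℓ : ℤ) : heckeAlgebra N 2 (↑S : Set ℕ))}

set_option maxHeartbeats 1600000 in
/-- **the socle step** (the second half of `S44/Ent/Eigen.exists_eigen_tate`, verbatim): if the
ideal `(p, T_ℓ - a ℓ)` of the Hecke algebra is proper, there is a Tate vector whose first coordinate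
is a non-zero eigenvector with the eigenvalues `a ℓ`. -/
theorem exists_eigen_tate_of_ne_top (S : Finset ℕ) (hNS : ∀ q : ℕ, q.Prime → q ∣ N → q ∈ S)
    (a : ℕ → ℤ)
    (θ : heckeAlgebra N 2 (↑S : Set ℕ) →+* Module.End ℤ_[p] (Tp p (JZero N)))
    (hθT : ∀ (ℓ : ℕ) (hℓ : ℓ.Prime) (hℓN : ¬ ℓ ∣ N) (hℓS : ℓ ∉ (↑S : Set ℕ)),
      θ (heckeAlgebra.T hℓ hℓN hℓS) = Tp.mapEnd (heckeEnd N (⟨ℓ, hℓ⟩ : Nat.Primes)))
    (n' : ℕ) (hn' : ∀ t : heckeAlgebra N 2 (↑S : Set ℕ),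
      (∀ v : Tp p (JZero N), θ t v ∈
        (Ideal.span {(p : ℤ_[p])} ^ n') • (⊤ : Submodule ℤ_[p] (Tp p (JZero N)))) →
        t ∈ Ideal.span {(p : heckeAlgebra N 2 (↑S : Set ℕ)) ^ 1})
    (hI : Ideal.span (genSet p N S a) ≠ ⊤) :
    ∃ x : Tp p (JZero N), x.1 1 ≠ 0 ∧ ∀ (ℓ : ℕ) (hℓ : ℓ.Prime), ℓ ∉ S →
      heckeOperatorBar N ⟨ℓ, hℓ⟩ (x.1 1) = a ℓ • x.1 1 := by
  have hp : p.Prime := Fact.out
  have hnotdvd : ∀ ℓ : ℕ, ℓ.Prime → ℓ ∉ S → ¬ ℓ ∣ N := fun ℓ hℓ hℓS h => hℓS (hNS ℓ hℓ h)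
  have hcoe : ∀ ℓ : ℕ, ℓ ∉ S → ℓ ∉ (↑S : Set ℕ) := fun ℓ h => by rwa [Finset.mem_coe]
  -- the finite module `Y`
  haveI : Finite (Lk p (JZero N) n') := finite_Lk p (JZero N) n'
    (Fermat.Agent.S30.Descent.PhiDictThm.finite_pow_torsion N p hp.ne_zero n')
  letI : Module (heckeAlgebra N 2 (↑S : Set ℕ)) (Lk p (JZero N) n') :=
    Module.compHom (Lk p (JZero N) n') (thetaK θ n')
  have hsm : ∀ (t : heckeAlgebra N 2 (↑S : Set ℕ)) (y : Lk p (JZero N) n'),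
      t • y = thetaK θ n' t y := fun t y => rfl
  have hann : ∀ t : heckeAlgebra N 2 (↑S : Set ℕ),
      (∀ y : Lk p (JZero N) n', t • y = 0) → t ∈ Ideal.span (genSet p N S a) := by
    intro t ht
    have h1 : t ∈ Ideal.span {(p : heckeAlgebra N 2 (↑S : Set ℕ)) ^ 1} := by
      refine hn' t fun v => ?_
      have h2 := ht (Submodule.Quotient.mk v)
      rw [hsm, thetaK_mk, Submodule.Quotient.mk_eq_zero] at h2
      exact h2
    rw [pow_one, Ideal.mem_span_singleton'] at h1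
    obtain ⟨c, rfl⟩ := h1
    exact Ideal.mul_mem_left _ _ (Ideal.subset_span (Or.inl rfl))
  obtain ⟨y, hy0, hy⟩ :=
    Fermat.Agent.S44.Ent.Socle.exists_ne_zero_forall_smul_eq_zero
      (Ideal.span (genSet p N S a)) hI hann
  -- read `y` in `J`
  obtain ⟨v, rfl⟩ := Submodule.Quotient.mk_surjective _ y
  have hx0 : v.1 n' ≠ 0 := by
    intro h
    apply hy0
    apply coordQ_injective p (JZero N) n'
    rw [coordQ_mk, h, map_zero]
  have hmk : ∀ t : heckeAlgebra N 2 (↑S : Set ℕ), t ∈ Ideal.span (genSet p N S a) →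
      (θ t v).1 n' = 0 := by
    intro t ht
    have h1 : (Submodule.Quotient.mk (θ t v) : Lk p (JZero N) n') = 0 := hy t ht
    have h2 := congrArg (coordQ p (JZero N) n') h1
    rw [coordQ_mk, map_zero] at h2
    exact h2
  have hpx : p • v.1 n' = 0 := by
    have h1 := hmk _ (Ideal.subset_span (Or.inl rfl))
    rw [map_natCast, Module.End.natCast_apply] at h1
    exact h1
  have heig' : ∀ (ℓ : ℕ) (hℓ : ℓ.Prime), ℓ ∉ S →
      heckeOperatorBar N ⟨ℓ, hℓ⟩ (v.1 n') = a ℓ • v.1 n' := by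
    intro ℓ hℓ hℓS
    have hmem : heckeAlgebra.T hℓ (hnotdvd ℓ hℓ hℓS) (hcoe ℓ hℓS) -
        ((a ℓ : ℤ) : heckeAlgebra N 2 (↑S : Set ℕ)) ∈ genSet p N S a :=
      Or.inr ⟨ℓ, hℓ, hnotdvd ℓ hℓ hℓS, hcoe ℓ hℓS, rfl⟩
    have h1 := hmk _ (Ideal.subset_span hmem)
    have h2 : θ (heckeAlgebra.T hℓ (hnotdvd ℓ hℓ hℓS) (hcoe ℓ hℓS) -
        ((a ℓ : ℤ) : heckeAlgebra N 2 (↑S : Set ℕ))) v =
        Tp.mapEnd (heckeEnd N (⟨ℓ, hℓ⟩ : Nat.Primes)) v - (a ℓ) • v := by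
      rw [map_sub, map_intCast θ (a ℓ), hθT, LinearMap.sub_apply, Module.End.intCast_apply]
    have h3 : ((a ℓ) • v).1 n' = a ℓ • v.1 n' := rfl
    rw [h2, Tp.coe_sub_apply, Tp.coe_mapEnd_apply, h3, sub_eq_zero] at h1
    exact h1
  obtain ⟨x, hx⟩ := Fermat.Agent.S44.Ent.Eigen.exists_lift_of_torsion v n' hpx
  refine ⟨x, by rwa [hx], fun ℓ hℓ hℓS => ?_⟩
  rw [hx]
  exact heig' ℓ hℓ hℓS

/-- an integer acts on `R ⊗ T_p J` through its image in `R` -/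
theorem baseChange_intCast (R : Type*) [CommRing R] [Algebra ℤ_[p] R] (m : ℤ) :
    ((m : Module.End ℤ_[p] (Tp p (JZero N)))).baseChange R =
      ((m : R) • (1 : Module.End R (R ⊗[ℤ_[p]] Tp p (JZero N)))) := by
  refine TensorProduct.AlgebraTensorModule.curry_injective ?_
  refine LinearMap.ext fun b => LinearMap.ext fun x => ?_
  simp [LinearMap.baseChange_tmul, TensorProduct.tmul_smul, TensorProduct.smul_tmul']

/-- **the ideal `(p, T_ℓ - a ℓ)` is proper** as soon as a non-zero `w ∈ R ⊗ T_p J₀(N)` (`R` a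
domain, torsion-free over `ℤ_p`) is an eigenvector with eigenvalues `θR ℓ ≡ a ℓ` modulo a proper
ideal `𝔪 ∋ p` of `R`. -/
theorem span_genSet_ne_top (R : Type*) [CommRing R] [IsDomain R] [Algebra ℤ_[p] R]
    [Module.IsTorsionFree ℤ_[p] R]
    (𝔪 : Ideal R) (h𝔪 : 𝔪 ≠ ⊤) (hp𝔪 : (p : R) ∈ 𝔪)
    (S : Finset ℕ) (hNS : ∀ q : ℕ, q.Prime → q ∣ N → q ∈ S) (a : ℕ → ℤ) (θR : ℕ → R)
    (θ : heckeAlgebra N 2 (↑S : Set ℕ) →+* Module.End ℤ_[p] (Tp p (JZero N)))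
    (hθT : ∀ (ℓ : ℕ) (hℓ : ℓ.Prime) (hℓN : ¬ ℓ ∣ N) (hℓS : ℓ ∉ (↑S : Set ℕ)),
      θ (heckeAlgebra.T hℓ hℓN hℓS) = Tp.mapEnd (heckeEnd N (⟨ℓ, hℓ⟩ : Nat.Primes)))
    (w : R ⊗[ℤ_[p]] Tp p (JZero N)) (hw : w ≠ 0)
    (heig : ∀ (ℓ : ℕ) (hℓ : ℓ.Prime), ℓ ∉ S →
      opVHom p R (JZero N) (heckeEnd N (⟨ℓ, hℓ⟩ : Nat.Primes)) w = θR ℓ • w)
    (hcong : ∀ ℓ : ℕ, ℓ.Prime → ℓ ∉ S → θR ℓ - ((a ℓ : ℤ) : R) ∈ 𝔪) :
    Ideal.span (genSet p N S a) ≠ ⊤ := by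
  have hp : p.Prime := Fact.out
  -- `R ⊗ T_p J` is torsion-free over `R`
  have hfinp : {y : JZero N | p • y = 0}.Finite := by
    have h1 := Fermat.Agent.S30.Descent.PhiDictThm.finite_pow_torsion N p hp.ne_zero 1
    simpa using h1
  haveI : Module.Finite ℤ_[p] (Tp p (JZero N)) := Tp.finite_of_finite hfinp
  haveI : Module.Free ℤ_[p] (Tp p (JZero N)) := Tp.free_of_finite hfinp
  have hex := exists_smul_eq R S hNS θ hθT θR w heig
  -- the elements acting on `w` through a scalar of `𝔪`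
  let I' : Ideal (heckeAlgebra N 2 (↑S : Set ℕ)) :=
    { carrier := {t | ∃ c ∈ 𝔪, (θ t).baseChange R w = c • w}
      zero_mem' := ⟨0, 𝔪.zero_mem, by rw [map_zero, LinearMap.baseChange_zero, zero_smul]; rfl⟩
      add_mem' := by
        rintro s t ⟨c, hc, hs⟩ ⟨d, hd, ht⟩
        exact ⟨c + d, 𝔪.add_mem hc hd, by
          rw [map_add, LinearMap.baseChange_add, LinearMap.add_apply, hs, ht, add_smul]⟩
      smul_mem' := by
        rintro s t ⟨c, hc, ht⟩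
        obtain ⟨d, hd⟩ := hex s
        exact ⟨d * c, 𝔪.mul_mem_left d hc, by
          rw [smul_eq_mul, map_mul, Module.End.mul_eq_comp, LinearMap.baseChange_comp,
            LinearMap.comp_apply, ht, map_smul, hd, smul_smul, mul_comm]⟩ }
  have hGI : ∀ t ∈ genSet p N S a, t ∈ I' := by
    rintro t (rfl | ⟨ℓ, hℓ, hℓN, hℓS, rfl⟩)
    · refine ⟨(p : R), hp𝔪, ?_⟩
      have h3 : ((p : ℕ) : heckeAlgebra N 2 (↑S : Set ℕ)) =
          (((p : ℤ)) : heckeAlgebra N 2 (↑S : Set ℕ)) := by push_cast; rfl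
      rw [h3, map_intCast, baseChange_intCast, LinearMap.smul_apply, Module.End.one_apply]
      push_cast
      rfl
    · have hℓS' : ℓ ∉ S := by simpa using hℓS
      refine ⟨θR ℓ - ((a ℓ : ℤ) : R), hcong ℓ hℓ hℓS', ?_⟩
      rw [map_sub, map_intCast, hθT, LinearMap.baseChange_sub, LinearMap.sub_apply,
        baseChange_intCast, LinearMap.smul_apply, Module.End.one_apply, ← opVHom_apply,
        heig ℓ hℓ hℓS']
      exact (sub_smul (θR ℓ) ((a ℓ : ℤ) : R) w).symm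
  intro htop
  have h1 : Ideal.span (genSet p N S a) ≤ I' := Ideal.span_le.mpr fun t ht => hGI t ht
  obtain ⟨c, hc, h3⟩ : (1 : heckeAlgebra N 2 (↑S : Set ℕ)) ∈ I' :=
    h1 (htop ▸ Submodule.mem_top)
  rw [map_one, Module.End.one_eq_id, LinearMap.baseChange_id, LinearMap.id_apply] at h3
  have h4 : ((1 : R) - c) • w = 0 := by
    have h5 := sub_smul (1 : R) c w
    rw [h5, one_smul, ← h3, sub_self]
  rcases smul_eq_zero.mp h4 with h5 | h5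
  · apply h𝔪
    rw [Ideal.eq_top_iff_one, sub_eq_zero.mp h5]
    exact hc
  · exact hw h5

/-- **(DESC)**: a Tate vector whose first coordinate is a non-zero eigenvector with the eigenvalues
`a r`, from a characteristic-zero eigenvector with eigenvalues `θR r ≡ a r` modulo `𝔪`. -/
theorem exists_eigen_tate_of_baseChange (R : Type*) [CommRing R] [IsDomain R] [Algebra ℤ_[p] R]
    [Module.IsTorsionFree ℤ_[p] R]
    (𝔪 : Ideal R) (h𝔪 : 𝔪 ≠ ⊤) (hp𝔪 : (p : R) ∈ 𝔪)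
    (S : Finset ℕ) (hNS : ∀ q : ℕ, q.Prime → q ∣ N → q ∈ S) (a : ℕ → ℤ) (θR : ℕ → R)
    (w : R ⊗[ℤ_[p]] Tp p (JZero N)) (hw : w ≠ 0)
    (heig : ∀ (ℓ : ℕ) (hℓ : ℓ.Prime), ℓ ∉ S →
      opVHom p R (JZero N) (heckeEnd N (⟨ℓ, hℓ⟩ : Nat.Primes)) w = θR ℓ • w)
    (hcong : ∀ ℓ : ℕ, ℓ.Prime → ℓ ∉ S → θR ℓ - ((a ℓ : ℤ) : R) ∈ 𝔪) :
    ∃ x : Tp p (JZero N), x.1 1 ≠ 0 ∧ ∀ (ℓ : ℕ) (hℓ : ℓ.Prime), ℓ ∉ S →
      heckeOperatorBar N ⟨ℓ, hℓ⟩ (x.1 1) = a ℓ • x.1 1 := by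
  obtain ⟨θ, hθT, hθinj⟩ := Fermat.Agent.S44.Ent.Theta.exists_theta p N S
  obtain ⟨n', hn'⟩ := hθinj 1
  exact exists_eigen_tate_of_ne_top S hNS a θ hθT n' hn'
    (span_genSet_ne_top R 𝔪 h𝔪 hp𝔪 S hNS a θR θ hθT w hw heig hcong)

end Fermat.Agent.S43.Exit.Desc
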