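/-
PROJECT R (S43), THE EXIT N6 (helper1): **FROM A CHARACTERISTIC-ZERO EIGEN-LATTICE OF LEVEL `M ℓ`,
UNRAMIFIED AT `ℓ`, TO `ModularRepOfLevel M`** (the last line of the stuck step, for the chosen `ℓ`).

Input (vocabulary of main's `S30/Padic`: `R ⊗ Tp`, `opVHom`, `rhoV`): `R` a domain of characteristic
`0`, torsion-free over `ℤ_p`, `𝔪` a proper ideal of `R` containing `p`; `Λ` free of rank `2` with an
injective `R`-linear `j : Λ → R ⊗ T_p J₀(M ℓ)`; `j Λ` consists of eigenvectors of the `T_r`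
(`r` good for `W`, `r ∤ M ℓ p`) with eigenvalues `θ r ≡ a_r(W)` modulo `𝔪`; the inertia group of a
place `A ∣ ℓ` acts trivially on `j Λ`; a Frobenius lift `σ` at `A` acts on `Λ` through `F` with
`det F = ℓ`.  Output: `P.ModularRepOfLevel M`.

Proof.  (X) = `T1/ToricNewMain.toricOfNewFixed` + `T1/NewSq.exists_not_new_of_det`: some `v ∈ Λ`
is not killed by `R ⊗ T_p (α_*, β_*)`; by `S35/Chain.baseChange_map_opVHom` and
`S35/DegeneracyHecke.alphaPush_hecke / betaPush_hecke` its image under `α_*` or `β_*` is a non-zero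
eigenvector of level `M` in `R ⊗ T_p J₀(M)` with the same eigenvalues; (DESC) = `Exit/Desc` gives a
Tate vector of level `M` whose first coordinate is a non-zero eigenvector with the eigenvalues
`a_r(W)`; main's `S44/Exit/PushOld.modularRepOfLevel_of_tate_good` concludes (`ℓ` is bad for `W`,
so the congruence at `ℓ` itself is not asked).
-/
import Fermat.Agent.S43.Exit.Desc
import Fermat.Agent.S43.T1.ToricNewMain
import Fermat.Agent.S43.T1.NewSq
import Fermat.Agent.S35.Chain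
import Fermat.Agent.S44.Ent.Phi
import Fermat.Agent.S44.Exit.PushOld

set_option autoImplicit false
set_option linter.unusedSectionVars false
set_option linter.unusedVariables false
set_option linter.style.haveILetI false

noncomputable section

namespace Fermat.Agent.S43.Exit.Main

open TensorProduct ModularCurve AlgebraicCurve FreyPackage
open Fermat.Agent.S30.Padic.TateModule Fermat.Agent.S30.Padic.Assembly
open Fermat.Agent.S30.Arith.TateInputs
open Fermat.Agent.S35.DegeneracyHecke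
open Fermat.Agent.S35.DegeneracyGalois (degPair)

local notation "Kb" => AlgebraicClosure ℚ
local notation "GQ" => (AlgebraicClosure ℚ ≃ₐ[ℚ] AlgebraicClosure ℚ)

section Pair

variable {q : ℕ} {M : ℕ} [NeZero M] [NeZero q] [NeZero (M * q)]
variable {p : ℕ} [Fact p.Prime]

/-- the pair of degeneracy maps is the sum of its two components -/
theorem degPair_eq_add :
    degPair M q = (AddMonoidHom.inl (JZero M) (JZero M)).comp (alphaPush M q) +
      (AddMonoidHom.inr (JZero M) (JZero M)).comp (betaPush M q) := by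
  refine AddMonoidHom.ext fun y => ?_
  rw [AddMonoidHom.add_apply, AddMonoidHom.comp_apply, AddMonoidHom.comp_apply,
    AddMonoidHom.inl_apply, AddMonoidHom.inr_apply, Prod.mk_add_mk, add_zero, zero_add]
  rfl

/-- a vector of `R ⊗ T_p J₀(M q)` which is not killed by the pair is not killed by one of the two
components -/
theorem alpha_or_beta_ne_zero (R : Type*) [CommRing R] [Algebra ℤ_[p] R]
    (v : R ⊗[ℤ_[p]] Tp p (JZero (M * q)))
    (hv : (Tp.map (p := p) (degPair M q)).baseChange R v ≠ 0) :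
    (Tp.map (p := p) (alphaPush M q)).baseChange R v ≠ 0 ∨
      (Tp.map (p := p) (betaPush M q)).baseChange R v ≠ 0 := by
  by_contra hcon
  rw [not_or, not_not, not_not] at hcon
  apply hv
  rw [degPair_eq_add, Tp.map_add_hom, Tp.map_comp, Tp.map_comp, LinearMap.baseChange_add,
    LinearMap.baseChange_comp, LinearMap.baseChange_comp, LinearMap.add_apply,
    LinearMap.comp_apply, LinearMap.comp_apply, hcon.1, hcon.2, map_zero, map_zero, add_zero]

end Pair

/-- **THE EXIT N6.** -/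
theorem modularRepOfLevel_of_lattice (P : FreyPackage) [Fact P.p.Prime] {M ℓ : ℕ} [NeZero M]
    [hℓ : Fact ℓ.Prime] [NeZero ℓ] [NeZero (M * ℓ)] (hℓM : ¬ ℓ ∣ M) (hpℓ : P.p ≠ ℓ)
    (W : WeierstrassCurve ℤ) (hW : W.IsIntegralModelOf P.freyCurve)
    (hbad : ¬ W.IsGoodPrimeFor ℓ)
    {A : ValuationSubring Kb} (hA : A.LiesOverPrime ℓ) {σ : GQ} (hσ : A.IsFrobeniusAt σ ℓ)
    (R : Type*) [CommRing R] [IsDomain R] [CharZero R] [Algebra ℤ_[P.p] R]
    [Module.IsTorsionFree ℤ_[P.p] R]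
    (𝔪 : Ideal R) (h𝔪 : 𝔪 ≠ ⊤) (hp𝔪 : (P.p : R) ∈ 𝔪)
    (Λ : Type*) [AddCommGroup Λ] [Module R Λ] [Module.Free R Λ] [Module.Finite R Λ]
    (h2 : Module.finrank R Λ = 2)
    (j : Λ →ₗ[R] R ⊗[ℤ_[P.p]] Tp P.p (JZero (M * ℓ))) (hj : Function.Injective j)
    (F : Module.End R Λ)
    (hF : ∀ v : Λ, j (F v) = rhoV P.p R (JZero (M * ℓ)) σ (j v))
    (hdet : LinearMap.det F = (ℓ : R))
    (hfix : ∀ τ ∈ A.inertiaSubgroupIn ℚ, ∀ v : Λ, rhoV P.p R (JZero (M * ℓ)) τ (j v) = j v)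
    (θ : ℕ → R)
    (heig : ∀ (r : ℕ) (hr : r.Prime), W.IsGoodPrimeFor r → ¬ r ∣ M * ℓ → r ≠ P.p → ∀ v : Λ,
      opVHom P.p R (JZero (M * ℓ)) (heckeEnd (M * ℓ) (⟨r, hr⟩ : Nat.Primes)) (j v) = θ r • j v)
    (hcong : ∀ r : ℕ, r.Prime → W.IsGoodPrimeFor r → ¬ r ∣ M * ℓ → r ≠ P.p →
      θ r - ((W.apOfModel r : ℤ) : R) ∈ 𝔪) :
    P.ModularRepOfLevel M := by
  have hΔ : W.Δ ≠ 0 := by
    haveI : P.freyCurve.IsElliptic :=
      ⟨isUnit_iff_ne_zero.mpr (Fermat.Agent.S13.CU.FreyInputs.frey_Δ_ne_zero P)⟩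
    exact Fermat.Agent.S41.NonEis.Main.disc_ne_zero P.freyCurve hW
  have hX := Fermat.Agent.S43.T1.ToricNewMain.toricOfNewFixed M ℓ P.p
    (Fact.out : P.p.Prime).ne_zero
  obtain ⟨v, hv⟩ := Fermat.Agent.S43.T1.NewSq.exists_not_new_of_det hpℓ hX hA hℓM hσ R Λ h2 j hj
    F hF hdet hfix
  set S := Fermat.Agent.S44.Ent.Phi.excSet W P.p (M * ℓ) with hS
  have hMℓ : M * ℓ ≠ 0 := NeZero.ne _
  have hNS : ∀ q : ℕ, q.Prime → q ∣ M → q ∈ S := fun q hq hqM =>
    Finset.mem_insert_of_mem (Finset.mem_union_left _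
      (Nat.mem_primeFactors.mpr ⟨hq, Dvd.dvd.mul_right hqM ℓ, hMℓ⟩))
  have key : ∀ φ : JZero (M * ℓ) →+ JZero M,
      (∀ r : Nat.Primes, ℓ ≠ r → ¬ (r : ℕ) ∣ M → ∀ y : JZero (M * ℓ),
        φ (heckeOperatorBar (M * ℓ) r y) = heckeOperatorBar M r (φ y)) →
      (Tp.map (p := P.p) φ).baseChange R (j v) ≠ 0 → P.ModularRepOfLevel M := by
    intro φ hφ hne
    obtain ⟨x, hx, hxeig⟩ := Fermat.Agent.S43.Exit.Desc.exists_eigen_tate_of_baseChange R 𝔪 h𝔪
      hp𝔪 S hNS (fun r => W.apOfModel r) θ _ hne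
      (fun r hr hrS => by
        obtain ⟨hg, hrN, hrp⟩ := Fermat.Agent.S44.Ent.Phi.of_not_mem_excSet hΔ hMℓ hr hrS
        have hrM : ¬ r ∣ M := fun h => hrN (Dvd.dvd.mul_right h ℓ)
        have hℓr : ℓ ≠ r := fun h => hrN (h ▸ Dvd.intro_left M rfl)
        rw [← Fermat.Agent.S35.Chain.baseChange_map_opVHom P.p R φ
          (heckeEnd (M * ℓ) (⟨r, hr⟩ : Nat.Primes)) (heckeEnd M (⟨r, hr⟩ : Nat.Primes))
          (fun y => hφ ⟨r, hr⟩ hℓr hrM y) (j v), heig r hr hg hrN hrp v, map_smul])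
      (fun r hr hrS => by
        obtain ⟨hg, hrN, hrp⟩ := Fermat.Agent.S44.Ent.Phi.of_not_mem_excSet hΔ hMℓ hr hrS
        exact hcong r hr hg hrN hrp)
    refine Fermat.Agent.S44.Exit.PushOld.modularRepOfLevel_of_tate_good P W hW x hx
      (fun l hl hgood hlM hlp => hxeig l hl ?_)
    refine Fermat.Agent.S44.Ent.Phi.not_mem_excSet hgood ?_ hlp
    intro hdvd
    rcases (Nat.Prime.dvd_mul hl).mp hdvd with h | h
    · exact hlM h
    · have : l = ℓ := (Nat.prime_dvd_prime_iff_eq hl hℓ.out).mp h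
      exact hbad (this ▸ hgood)
  rcases alpha_or_beta_ne_zero R (j v) hv with h | h
  · exact key (alphaPush M ℓ) (fun r hℓr hrM y => alphaPush_hecke hℓ.out hℓM r hℓr hrM y) h
  · exact key (betaPush M ℓ) (fun r hℓr hrM y => betaPush_hecke hℓ.out hℓM r hℓr hrM y) h

end Fermat.Agent.S43.Exit.Main
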