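/-
PROJECT R (S43), THE EXIT N6 (helper1), brick (NEWSQ+): `T1/NewSq.exists_not_new_of_det` WITH TWO
RINGS.  The Tate module is tensored with `O`; the lattice `Λ` is free of rank `2` over ANOTHER ring
`R` (a domain of characteristic `0`, in the application a quotient of the Hecke algebra acting on
`Λ` through the Hecke operators) and `j : Λ →+ O ⊗ Tp J₀(M q)` is only ADDITIVE.  Same proof: `j` is
used through `j (n • v) = n • j v` for natural numbers `n` only.
-/
import Fermat.Agent.S43.T1.NewSq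

set_option autoImplicit false
set_option linter.unusedSectionVars false
set_option linter.style.haveILetI false

noncomputable section

namespace Fermat.Agent.S43.Exit.NewSqAdd

open TensorProduct ModularCurve AlgebraicCurve
open Fermat.Agent.S30.Padic.TateModule Fermat.Agent.S30.Padic.Assembly
open Fermat.Agent.S35.DegeneracyGalois (degPair)
open Fermat.Agent.S43.T1.Hyp

local notation "Kb" => AlgebraicClosure ℚ
local notation "GQ" => (AlgebraicClosure ℚ ≃ₐ[ℚ] AlgebraicClosure ℚ)

variable {q : ℕ} [hq : Fact q.Prime] {M : ℕ} [NeZero M] [NeZero q] [NeZero (M * q)]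
variable {p : ℕ} [hp : Fact p.Prime]

/-- **a Galois-stable rank-two lattice, unramified at `q` with `det Frob_q = q`, is not new** (two
rings: `O` for the Tate module, `R` for the lattice) -/
theorem exists_not_new_of_det_add (hpq : p ≠ q) (hX : ToricOfNewFixed M q p)
    {A : ValuationSubring Kb} (hA : A.LiesOverPrime q) (hqM : ¬ q ∣ M)
    {σ : GQ} (hσ : A.IsFrobeniusAt σ q)
    (O : Type*) [CommRing O] [Algebra ℤ_[p] O] [Module.IsTorsionFree ℤ_[p] O]
    (R : Type*) [CommRing R] [IsDomain R] [CharZero R]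
    (Λ : Type*) [AddCommGroup Λ] [Module R Λ] [Module.Free R Λ] [Module.Finite R Λ]
    (h2 : Module.finrank R Λ = 2)
    (j : Λ →+ O ⊗[ℤ_[p]] Tp p (JZero (M * q))) (hj : Function.Injective j)
    (F : Module.End R Λ)
    (hF : ∀ v : Λ, j (F v) = rhoV p O (JZero (M * q)) σ (j v))
    (hdet : LinearMap.det F = (q : R))
    (hfix : ∀ τ ∈ A.inertiaSubgroupIn ℚ, ∀ v : Λ, rhoV p O (JZero (M * q)) τ (j v) = j v) :
    ∃ v : Λ, (Tp.map (p := p) (degPair M q)).baseChange O (j v) ≠ 0 := by
  by_contra hnew0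
  have hnew : ∀ v : Λ, (Tp.map (p := p) (degPair M q)).baseChange O (j v) = 0 := fun v =>
    by_contra fun h => hnew0 ⟨v, h⟩
  obtain ⟨c, hc, hcσ⟩ := Fermat.Agent.S43.T1.NewSq.smul_frobSq_eq_of_new_of_fixed hpq hX hA hqM
  have hcR : (c : R) ≠ 0 := Nat.cast_ne_zero.mpr hc
  -- `F² = q²`
  have hFF : F * F = ((q ^ 2 : ℕ) : R) • (1 : Module.End R Λ) := by
    refine LinearMap.ext fun v => ?_
    have h1 := hcσ σ hσ O (j v) (hnew v) (fun τ hτ => hfix τ hτ v)
    rw [Nat.cast_smul_eq_nsmul, Nat.cast_smul_eq_nsmul, Nat.cast_smul_eq_nsmul] at h1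
    have h1' : j (c • F (F v)) = j (c • (q ^ 2) • v) := by
      rw [map_nsmul, map_nsmul, map_nsmul, hF, hF]
      exact h1
    have h3 := hj h1'
    have h4 : (c : R) • (F (F v) - ((q ^ 2 : ℕ) : R) • v) = 0 := by
      rw [Nat.cast_smul_eq_nsmul, Nat.cast_smul_eq_nsmul, smul_sub, h3, sub_self]
    have h5 := (smul_eq_zero.mp h4).resolve_left hcR
    rw [Module.End.mul_apply, LinearMap.smul_apply, Module.End.one_apply]
    exact sub_eq_zero.mp h5
  -- determinants
  have hd := congrArg LinearMap.det hFF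
  rw [map_mul, hdet, LinearMap.det_smul, h2, map_one, mul_one] at hd
  -- `q² = q⁴` in characteristic zero
  have hq2 : (2 : ℕ) ≤ q := hq.out.two_le
  have hnat : q * q = (q ^ 2) ^ 2 := by exact_mod_cast hd
  have hlt : q * q < (q ^ 2) ^ 2 := by
    have h4 : q * q = q ^ 2 := (pow_two q).symm
    rw [h4, pow_two (q ^ 2)]
    have hq2pos : 1 < q ^ 2 := by nlinarith
    nlinarith
  exact absurd hnat hlt.ne

end Fermat.Agent.S43.Exit.NewSqAdd
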