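/-
PROJECT R (S43), THE EXIT N6 (helper1), TWO-RING FORM: **FROM A CHARACTERISTIC-ZERO EIGEN-LATTICE OF
LEVEL `M ℓ`, UNRAMIFIED AT `ℓ`, TO `ModularRepOfLevel M`**, the Tate module being tensored with `O`
and the eigenvalues living in ANOTHER ring `R` (a domain of characteristic `0`) over which the lattice
`Λ` is free of rank `2`; `j : Λ →+ O ⊗ T_p J₀(M ℓ)` is additive and injective, and
`T_r (j v) = j (θ r • v)`.  (`Exit/Main` is the case `O = R`, `j` linear.)  This is the form in which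
the patched point enters: `R = T₀ ⧸ 𝔭` acts on `Λ ⊆ Lam₀[𝔭]` through the Hecke operators.

Proof: `Exit/NewSqAdd` (some `v ∈ Λ` is not new), `S35/Chain.baseChange_map_opVHom` +
`alphaPush_hecke / betaPush_hecke` (its image at level `M` is an eigen-lattice map), `Exit/DescAdd`
(the Tate vector), main's `S44/Exit/PushOld.modularRepOfLevel_of_tate_good`.
-/
import Fermat.Agent.S43.Exit.Main
import Fermat.Agent.S43.Exit.NewSqAdd
import Fermat.Agent.S43.Exit.DescAdd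

set_option autoImplicit false
set_option linter.unusedSectionVars false
set_option linter.unusedVariables false
set_option linter.style.haveILetI false

noncomputable section

namespace Fermat.Agent.S43.Exit.MainAdd

open TensorProduct ModularCurve AlgebraicCurve FreyPackage
open Fermat.Agent.S30.Padic.TateModule Fermat.Agent.S30.Padic.Assembly
open Fermat.Agent.S30.Arith.TateInputs
open Fermat.Agent.S35.DegeneracyHecke
open Fermat.Agent.S35.DegeneracyGalois (degPair)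

local notation "Kb" => AlgebraicClosure ℚ
local notation "GQ" => (AlgebraicClosure ℚ ≃ₐ[ℚ] AlgebraicClosure ℚ)

/-- **THE EXIT N6, TWO-RING FORM.** -/
theorem modularRepOfLevel_of_lattice_add (P : FreyPackage) [Fact P.p.Prime] {M ℓ : ℕ} [NeZero M]
    [hℓ : Fact ℓ.Prime] [NeZero ℓ] [NeZero (M * ℓ)] (hℓM : ¬ ℓ ∣ M) (hpℓ : P.p ≠ ℓ)
    (W : WeierstrassCurve ℤ) (hW : W.IsIntegralModelOf P.freyCurve)
    (hbad : ¬ W.IsGoodPrimeFor ℓ)
    {A : ValuationSubring Kb} (hA : A.LiesOverPrime ℓ) {σ : GQ} (hσ : A.IsFrobeniusAt σ ℓ)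
    (O : Type*) [CommRing O] [Algebra ℤ_[P.p] O] [Module.IsTorsionFree ℤ_[P.p] O]
    (R : Type*) [CommRing R] [IsDomain R] [CharZero R]
    (𝔪 : Ideal R) (h𝔪 : ∀ c ∈ 𝔪, IsUnit (1 - c)) (hp𝔪 : (P.p : R) ∈ 𝔪)
    (Λ : Type*) [AddCommGroup Λ] [Module R Λ] [Module.Free R Λ] [Module.Finite R Λ]
    (h2 : Module.finrank R Λ = 2)
    (j : Λ →+ O ⊗[ℤ_[P.p]] Tp P.p (JZero (M * ℓ))) (hj : Function.Injective j)
    (F : Module.End R Λ)
    (hF : ∀ v : Λ, j (F v) = rhoV P.p O (JZero (M * ℓ)) σ (j v))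
    (hdet : LinearMap.det F = (ℓ : R))
    (hfix : ∀ τ ∈ A.inertiaSubgroupIn ℚ, ∀ v : Λ, rhoV P.p O (JZero (M * ℓ)) τ (j v) = j v)
    (θ : ℕ → R)
    (heig : ∀ (r : ℕ) (hr : r.Prime), W.IsGoodPrimeFor r → ¬ r ∣ M * ℓ → r ≠ P.p → ∀ v : Λ,
      opVHom P.p O (JZero (M * ℓ)) (heckeEnd (M * ℓ) (⟨r, hr⟩ : Nat.Primes)) (j v) =
        j (θ r • v))
    (hcong : ∀ r : ℕ, r.Prime → W.IsGoodPrimeFor r → ¬ r ∣ M * ℓ → r ≠ P.p →
      θ r - ((W.apOfModel r : ℤ) : R) ∈ 𝔪) :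
    P.ModularRepOfLevel M := by
  have hΔ : W.Δ ≠ 0 := by
    haveI : P.freyCurve.IsElliptic :=
      ⟨isUnit_iff_ne_zero.mpr (Fermat.Agent.S13.CU.FreyInputs.frey_Δ_ne_zero P)⟩
    exact Fermat.Agent.S41.NonEis.Main.disc_ne_zero P.freyCurve hW
  have hX := Fermat.Agent.S43.T1.ToricNewMain.toricOfNewFixed M ℓ P.p
    (Fact.out : P.p.Prime).ne_zero
  obtain ⟨v, hv⟩ := Fermat.Agent.S43.Exit.NewSqAdd.exists_not_new_of_det_add hpℓ hX hA hℓM hσ O R
    Λ h2 j hj F hF hdet hfix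
  set S := Fermat.Agent.S44.Ent.Phi.excSet W P.p (M * ℓ) with hS
  have hMℓ : M * ℓ ≠ 0 := NeZero.ne _
  have hNS : ∀ q : ℕ, q.Prime → q ∣ M → q ∈ S := fun q hq hqM =>
    Finset.mem_insert_of_mem (Finset.mem_union_left _
      (Nat.mem_primeFactors.mpr ⟨hq, Dvd.dvd.mul_right hqM ℓ, hMℓ⟩))
  have key : ∀ φ : JZero (M * ℓ) →+ JZero M,
      (∀ r : Nat.Primes, ℓ ≠ r → ¬ (r : ℕ) ∣ M → ∀ y : JZero (M * ℓ),
        φ (heckeOperatorBar (M * ℓ) r y) = heckeOperatorBar M r (φ y)) →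
      (Tp.map (p := P.p) φ).baseChange O (j v) ≠ 0 → P.ModularRepOfLevel M := by
    intro φ hφ hne
    set u : Λ →+ O ⊗[ℤ_[P.p]] Tp P.p (JZero M) :=
      ((Tp.map (p := P.p) φ).baseChange O).toAddMonoidHom.comp j with hu
    have hux : ∀ x : Λ, u x = (Tp.map (p := P.p) φ).baseChange O (j x) := fun x => rfl
    obtain ⟨x, hx, hxeig⟩ := Fermat.Agent.S43.Exit.DescAdd.exists_eigen_tate_of_lattice O R 𝔪 h𝔪
      hp𝔪 S hNS (fun r => W.apOfModel r) θ Λ u v hne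
      (fun r hr hrS x => by
        obtain ⟨hg, hrN, hrp⟩ := Fermat.Agent.S44.Ent.Phi.of_not_mem_excSet hΔ hMℓ hr hrS
        have hrM : ¬ r ∣ M := fun h => hrN (Dvd.dvd.mul_right h ℓ)
        have hℓr : ℓ ≠ r := fun h => hrN (h ▸ Dvd.intro_left M rfl)
        rw [hux, hux, ← Fermat.Agent.S35.Chain.baseChange_map_opVHom P.p O φ
          (heckeEnd (M * ℓ) (⟨r, hr⟩ : Nat.Primes)) (heckeEnd M (⟨r, hr⟩ : Nat.Primes))
          (fun y => hφ ⟨r, hr⟩ hℓr hrM y) (j x), heig r hr hg hrN hrp x])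
      (fun r hr hrS => by
        obtain ⟨hg, hrN, hrp⟩ := Fermat.Agent.S44.Ent.Phi.of_not_mem_excSet hΔ hMℓ hr hrS
        exact hcong r hr hg hrN hrp)
    refine Fermat.Agent.S44.Exit.PushOld.modularRepOfLevel_of_tate_good P W hW x hx
      (fun l hl hgood hlM hlp => hxeig l hl ?_)
    refine Fermat.Agent.S44.Ent.Phi.not_mem_excSet hgood ?_ hlp
    intro hdvd
    rcases (Nat.Prime.dvd_mul hl).mp hdvd with h | h
    · exact hlM h
    · have : l = ℓ := (Nat.prime_dvd_prime_iff_eq hl hℓ.out).mp h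
      exact hbad (this ▸ hgood)
  rcases Fermat.Agent.S43.Exit.Main.alpha_or_beta_ne_zero O (j v) hv with h | h
  · exact key (alphaPush M ℓ) (fun r hℓr hrM y => alphaPush_hecke hℓ.out hℓM r hℓr hrM y) h
  · exact key (betaPush M ℓ) (fun r hℓr hrM y => betaPush_hecke hℓ.out hℓM r hℓr hrM y) h

end Fermat.Agent.S43.Exit.MainAdd
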