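/-
PROJECT R (S43), THE EXIT N6 (helper1), brick (SECTION): **THE LOCALISATION `N_m` OF A NOETHERIAN
HECKE MODULE EMBEDS BACK INTO `N`, COMPATIBLY WITH EVERY `P`-LINEAR ENDOMORPHISM OF `N`.**

`N` a noetherian `O`-module with an action of a commutative `O`-algebra `P`, `m` a maximal ideal of
`P` such that `N → N_m` is onto (helper24's `Hecke/FinLoc.mkLinearMap_surjective`: `N` finite over a
complete noetherian local `O`).  The kernel of `N → N_m` is finitely generated over `O`, hence killed
by ONE `s₀ ∉ m`; `x / 1 ↦ s₀ • x` is a well defined injective `P`-linear map `ι : N_m → N`, and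
`ι (f_m y) = f (ι y)` for every `f ∈ End_P N` (`f_m` = helper22's `Lam.locEnd`).  No idempotent.
-/
import Mathlib
import Fermat.Agent.S43.Rho.Lam
import Fermat.Agent.S43.Hecke.FinLoc

set_option autoImplicit false
set_option linter.unusedSectionVars false

noncomputable section

namespace Fermat.Agent.S43.Exit.Section

open Fermat.Agent.S43.Rho.Lam

variable (O : Type) [CommRing O] {P : Type} [CommRing P] [Algebra O P] (m : Ideal P) [m.IsMaximal]
  (N : Type) [AddCommGroup N] [Module O N] [Module P N] [IsScalarTower O P N]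

/-- one denominator kills the kernel of the localisation map -/
theorem exists_smul_eq_zero_of_mk_eq_zero [IsNoetherian O N] :
    ∃ s₀ : m.primeCompl, ∀ x : N, LocalizedModule.mkLinearMap m.primeCompl N x = 0 →
      (s₀ : P) • x = 0 := by
  classical
  set K : Submodule P N := LinearMap.ker (LocalizedModule.mkLinearMap m.primeCompl N) with hK
  have hfg : (K.restrictScalars O).FG := IsNoetherian.noetherian _
  obtain ⟨S, hS⟩ := hfg
  have hex : ∀ x : N, ∃ s : m.primeCompl, x ∈ K → (s : P) • x = 0 := fun x => by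
    by_cases hx : x ∈ K
    · obtain ⟨s, hs⟩ := (IsLocalizedModule.eq_zero_iff m.primeCompl
        (LocalizedModule.mkLinearMap m.primeCompl N)).mp (LinearMap.mem_ker.mp hx)
      exact ⟨s, fun _ => hs⟩
    · exact ⟨1, fun h => absurd h hx⟩
  choose s hs using hex
  have key : ∀ x ∈ Submodule.span O (S : Set N), ((∏ x ∈ S, s x : m.primeCompl) : P) • x = 0 := by
    intro x hxK
    induction hxK using Submodule.span_induction with
    | mem x hxS =>
      have hxK' : x ∈ K := by
        have : x ∈ K.restrictScalars O := hS ▸ Submodule.subset_span hxS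
        exact this
      rw [← Finset.mul_prod_erase S s (Finset.mem_coe.mp hxS), Submonoid.coe_mul, mul_comm,
        mul_smul, hs x hxK', smul_zero]
    | zero => rw [smul_zero]
    | add x y _ _ hx hy => rw [smul_add, hx, hy, add_zero]
    | smul c x _ hx =>
      rw [← algebraMap_smul P c x, ← mul_smul, mul_comm, mul_smul, hx, smul_zero]
  refine ⟨∏ x ∈ S, s x, fun x hx => key x ?_⟩
  rw [hS]
  exact LinearMap.mem_ker.mpr hx

/-- **(SECTION)** -/
theorem exists_section [IsNoetherian O N]
    (hsurj : Function.Surjective (LocalizedModule.mkLinearMap m.primeCompl N)) :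
    ∃ (s₀ : m.primeCompl) (ι : Loc m N →ₗ[P] N), Function.Injective ι ∧
      (∀ x : N, ι (LocalizedModule.mk x 1) = (s₀ : P) • x) ∧
      ∀ (f : Module.End P N) (y : Loc m N), ι (locEnd O m N f y) = f (ι y) := by
  obtain ⟨s₀, hs₀⟩ := exists_smul_eq_zero_of_mk_eq_zero O m N
  set mk' : N →ₗ[P] Loc m N := LocalizedModule.mkLinearMap m.primeCompl N with hmk
  set f₀ : N →ₗ[P] N := LinearMap.lsmul P N (s₀ : P) with hf₀
  have hle : LinearMap.ker mk' ≤ LinearMap.ker f₀ := fun x hx => by
    rw [LinearMap.mem_ker] at hx ⊢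
    exact hs₀ x hx
  set ι : Loc m N →ₗ[P] N :=
    (Submodule.liftQ (LinearMap.ker mk') f₀ hle).comp
      (LinearMap.quotKerEquivOfSurjective mk' hsurj).symm.toLinearMap with hι
  have hιmk : ∀ x : N, ι (LocalizedModule.mk x 1) = (s₀ : P) • x := fun x => by
    have h1 : (LocalizedModule.mk x 1 : Loc m N) = mk' x := rfl
    rw [hι, LinearMap.comp_apply, LinearEquiv.coe_coe, h1,
      LinearMap.quotKerEquivOfSurjective_symm_apply, Submodule.liftQ_apply]
    rfl
  refine ⟨s₀, ι, ?_, hιmk, ?_⟩
  · rw [injective_iff_map_eq_zero]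
    intro y hy
    obtain ⟨x, rfl⟩ := hsurj y
    have h1 : (mk' x : Loc m N) = LocalizedModule.mk x 1 := rfl
    rw [h1, hιmk] at hy
    exact (IsLocalizedModule.eq_zero_iff m.primeCompl mk').mpr ⟨s₀, hy⟩
  · intro f y
    obtain ⟨x, rfl⟩ := hsurj y
    have h1 : (mk' x : Loc m N) = LocalizedModule.mk x 1 := rfl
    rw [h1, locEnd_mk, hιmk, hιmk, map_smul]

/-- **(SECTION)** for a module finite over a complete noetherian local ring -/
theorem exists_section_of_complete [IsLocalRing O] [IsNoetherianRing O]
    [IsAdicComplete (IsLocalRing.maximalIdeal O) O] [Module.Finite O N] :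
    ∃ (s₀ : m.primeCompl) (ι : Loc m N →ₗ[P] N), Function.Injective ι ∧
      (∀ x : N, ι (LocalizedModule.mk x 1) = (s₀ : P) • x) ∧
      ∀ (f : Module.End P N) (y : Loc m N), ι (locEnd O m N f y) = f (ι y) :=
  haveI : IsNoetherian O N := isNoetherian_of_isNoetherianRing_of_finite O N
  exists_section O m N (Fermat.Agent.S43.Hecke.FinLoc.mkLinearMap_surjective (𝒪 := O) m)

end Fermat.Agent.S43.Exit.Section
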