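/-
PROJECT R (S43), THE EXIT N6 (helper1), brick (POINT): **FROM AN EIGENVECTOR OF `T` IN A MODULE ON
WHICH THE CAYLEY–HAMILTON ALGEBRA `E` ACTS TO A FREE RANK-TWO LATTICE ON WHICH `G` ACTS THROUGH
`θ ∘ ρ_T`.**  Pure algebra on the chief's `Rho/CH.lean`.

`h : Input r t d c g₀ h₀` (so `rep h : G →* M₂(T)`), `θ : T →+* R`, `V` an `R`-module,
`φ : E →+* End_R V`, `z ≠ 0` in `V` with `φ (algebraMap s) z = θ s • z` for all `s : T`, and no
non-zero scalar of `R` kills a non-zero vector of `V`.  Then there is an injective `R`-linear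
`j : R² → V` whose image consists of `θ`-eigenvectors of `T` and with
`φ (r g) (j v) = j ((θ (rep h g)) v)` for all `g`.  The determinant of `θ (rep h g)` is `θ (d g)`.
-/
import Fermat.Agent.S43.Rho.CH

set_option autoImplicit false
set_option linter.unusedSectionVars false
set_option linter.unusedVariables false

noncomputable section

namespace Fermat.Agent.S43.Exit.Point

open Matrix Fermat.Agent.S43.Rho.CH

variable {T : Type*} [CommRing T] [Invertible (2 : T)] {E : Type*} [Ring E] [Algebra T E]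
  {G : Type*} [Group G] {r : G →* E} {t : G → T} {d : G →* T} {c g₀ h₀ : G}
  {R : Type*} [CommRing R] {V : Type*} [AddCommGroup V] [Module R V]

/-- the `θ`-eigenspace of `T` in `V` -/
def eigenSub (θ : T →+* R) (φ : E →+* Module.End R V) : Submodule R V where
  carrier := {v | ∀ s : T, φ (algebraMap T E s) v = θ s • v}
  add_mem' := by
    intro a b ha hb s
    rw [map_add, ha s, hb s, smul_add]
  zero_mem' := by
    intro s
    rw [map_zero, smul_zero]
  smul_mem' := by
    intro a v hv s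
    rw [map_smul, hv s, smul_comm]

theorem mem_eigenSub (θ : T →+* R) (φ : E →+* Module.End R V) (v : V) :
    v ∈ eigenSub θ φ ↔ ∀ s : T, φ (algebraMap T E s) v = θ s • v := Iff.rfl

variable (θ : T →+* R) (φ : E →+* Module.End R V)

/-- the eigenspace is stable under `E` -/
theorem phi_mem (e : E) {v : V} (hv : v ∈ eigenSub θ φ) : φ e v ∈ eigenSub θ φ := by
  intro s
  have h1 : algebraMap T E s * e = e * algebraMap T E s := Algebra.commutes s e
  have h2 : φ (algebraMap T E s) (φ e v) = φ (algebraMap T E s * e) v := by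
    rw [map_mul]; rfl
  rw [h2, h1, map_mul]
  show φ e (φ (algebraMap T E s) v) = _
  rw [hv s, map_smul]

/-- on the eigenspace, `φ (s • e) = θ s • φ e` -/
theorem phi_smul (s : T) (e : E) {v : V} (hv : v ∈ eigenSub θ φ) :
    φ (s • e) v = θ s • φ e v := by
  rw [Algebra.smul_def, map_mul]
  show φ (algebraMap T E s) (φ e v) = _
  exact phi_mem θ φ e hv s

theorem phi_ep_add_em (v : V) :
    φ (ep (T := T) r c) v + φ (em (T := T) r c) v = v := by
  have h1 : φ (ep (T := T) r c + em (T := T) r c) v = v := by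
    rw [ep_add_em, map_one]; rfl
  rwa [map_add] at h1

theorem c11 (hP : Pre r t d c) (g : G) {v : V} (hv : v ∈ eigenSub θ φ) :
    φ (ep (T := T) r c) (φ (r g) (φ (ep (T := T) r c) v)) =
      θ (aT t c g) • φ (ep (T := T) r c) v := by
  have h1 := congrArg (fun e => φ e v) (comp11 hP g)
  simp only [map_mul] at h1
  rw [phi_smul θ φ _ _ hv] at h1
  exact h1

theorem c22 (hP : Pre r t d c) (g : G) {v : V} (hv : v ∈ eigenSub θ φ) :
    φ (em (T := T) r c) (φ (r g) (φ (em (T := T) r c) v)) =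
      θ (dT t c g) • φ (em (T := T) r c) v := by
  have h1 := congrArg (fun e => φ e v) (comp22 hP g)
  simp only [map_mul] at h1
  rw [phi_smul θ φ _ _ hv] at h1
  exact h1

theorem cx (hP : Pre r t d c) (g g' : G) {v : V} (hv : v ∈ eigenSub θ φ) :
    φ (ep (T := T) r c) (φ (r g) (φ (em (T := T) r c) (φ (r g') (φ (ep (T := T) r c) v)))) =
      θ (xT t c g g') • φ (ep (T := T) r c) v := by
  have h1 := congrArg (fun e => φ e v) (compx hP g g')
  simp only [map_mul] at h1
  rw [phi_smul θ φ _ _ hv] at h1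
  exact h1

theorem cy (hP : Pre r t d c) (g g' : G) {v : V} (hv : v ∈ eigenSub θ φ) :
    φ (em (T := T) r c) (φ (r g) (φ (ep (T := T) r c) (φ (r g') (φ (em (T := T) r c) v)))) =
      θ (yT t c g g') • φ (em (T := T) r c) v := by
  have h1 := congrArg (fun e => φ e v) (compy hP g g')
  simp only [map_mul] at h1
  rw [phi_smul θ φ _ _ hv] at h1
  exact h1

theorem phi_ep_ep (hP : Pre r t d c) (v : V) :
    φ (ep (T := T) r c) (φ (ep (T := T) r c) v) = φ (ep (T := T) r c) v := by
  have h1 := congrArg (fun e => φ e v) (ep_mul_ep hP)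
  simp only [map_mul] at h1
  exact h1

theorem phi_em_em (hP : Pre r t d c) (v : V) :
    φ (em (T := T) r c) (φ (em (T := T) r c) v) = φ (em (T := T) r c) v := by
  have h1 := congrArg (fun e => φ e v) (em_mul_em hP)
  simp only [map_mul] at h1
  exact h1

theorem phi_ep_em (hP : Pre r t d c) (v : V) :
    φ (ep (T := T) r c) (φ (em (T := T) r c) v) = 0 := by
  have h1 := congrArg (fun e => φ e v) (ep_mul_em hP)
  simp only [map_mul, map_zero] at h1
  exact h1

theorem phi_em_ep (hP : Pre r t d c) (v : V) :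
    φ (em (T := T) r c) (φ (ep (T := T) r c) v) = 0 := by
  have h1 := congrArg (fun e => φ e v) (em_mul_ep hP)
  simp only [map_mul, map_zero] at h1
  exact h1


/-! ### a non-zero eigenvector in the image of `e⁺` -/

theorem smul_eq_zero_of_isUnit {a : R} (ha : IsUnit a) {v : V} (hv : a • v = 0) : v = 0 := by
  have h4 : (↑(ha.unit⁻¹) : R) • (a • v) = v := by
    rw [smul_smul, IsUnit.val_inv_mul, one_smul]
  rw [← h4, hv, smul_zero]

theorem exists_plus (h : Input r t d c g₀ h₀) {z : V} (hz : z ∈ eigenSub θ φ) (hz0 : z ≠ 0) :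
    ∃ zp ∈ eigenSub θ φ, zp ≠ 0 ∧ φ (ep (T := T) r c) zp = zp := by
  have hP := h.toPre
  by_cases h0 : φ (ep (T := T) r c) z = 0
  · have h1 : φ (em (T := T) r c) z = z := by
      have := phi_ep_add_em (T := T) (r := r) (c := c) φ z
      rwa [h0, zero_add] at this
    refine ⟨φ (ep (T := T) r c) (φ (r g₀) z), phi_mem θ φ _ (phi_mem θ φ _ hz), ?_,
      phi_ep_ep φ hP _⟩
    intro h2
    have h3 := cy θ φ hP h₀ g₀ hz
    rw [h1, h2, map_zero, map_zero] at h3
    exact hz0 (smul_eq_zero_of_isUnit (h.uy.map θ) h3.symm)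
  · exact ⟨φ (ep (T := T) r c) z, phi_mem θ φ _ hz, h0, phi_ep_ep φ hP _⟩

/-! ### the action of `G` on `z⁺`, `z⁻ = e⁻ (r h₀) z⁺` -/

theorem theta_uinv_mul (h : Input r t d c g₀ h₀) : θ (uinv h) * θ (yT t c h₀ g₀) = 1 := by
  rw [yT_eq_xT h, ← map_mul, uinv_mul, map_one]

theorem act_plus (h : Input r t d c g₀ h₀) (g : G) {zp : V} (hzp : zp ∈ eigenSub θ φ)
    (hfix : φ (ep (T := T) r c) zp = zp) :
    φ (r g) zp = θ (aT t c g) • zp +
      θ (uinv h * xT t c g₀ g) • φ (em (T := T) r c) (φ (r h₀) zp) := by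
  have hP := h.toPre
  have h1 : φ (ep (T := T) r c) (φ (r g) zp) = θ (aT t c g) • zp := by
    have := c11 θ φ hP g hzp
    rwa [hfix] at this
  have h2 : φ (em (T := T) r c) (φ (r g) zp) =
      θ (uinv h * xT t c g₀ g) • φ (em (T := T) r c) (φ (r h₀) zp) := by
    have k1 := cy θ φ hP h₀ g₀ (phi_mem θ φ (r g) hzp)
    have k2 := cx θ φ hP g₀ g hzp
    rw [hfix] at k2
    rw [k2, map_smul, map_smul] at k1
    rw [map_mul, mul_smul, k1, smul_smul, theta_uinv_mul θ h, one_smul]
  have h3 := phi_ep_add_em (T := T) (r := r) (c := c) φ (φ (r g) zp)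
  rw [h1, h2] at h3
  exact h3.symm

theorem act_minus (h : Input r t d c g₀ h₀) (g : G) {zp : V} (hzp : zp ∈ eigenSub θ φ)
    (hfix : φ (ep (T := T) r c) zp = zp) :
    φ (r g) (φ (em (T := T) r c) (φ (r h₀) zp)) = θ (xT t c g h₀) • zp +
      θ (dT t c g) • φ (em (T := T) r c) (φ (r h₀) zp) := by
  have hP := h.toPre
  have h1 : φ (ep (T := T) r c) (φ (r g) (φ (em (T := T) r c) (φ (r h₀) zp))) =
      θ (xT t c g h₀) • zp := by
    have := cx θ φ hP g h₀ hzp
    rwa [hfix] at this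
  have h2 : φ (em (T := T) r c) (φ (r g) (φ (em (T := T) r c) (φ (r h₀) zp))) =
      θ (dT t c g) • φ (em (T := T) r c) (φ (r h₀) zp) :=
    c22 θ φ hP g (phi_mem θ φ (r h₀) hzp)
  have h3 := phi_ep_add_em (T := T) (r := r) (c := c) φ
    (φ (r g) (φ (em (T := T) r c) (φ (r h₀) zp)))
  rw [h1, h2] at h3
  exact h3.symm

theorem minus_ne_zero (h : Input r t d c g₀ h₀) {zp : V} (hzp : zp ∈ eigenSub θ φ)
    (hfix : φ (ep (T := T) r c) zp = zp) (hzp0 : zp ≠ 0) :
    φ (em (T := T) r c) (φ (r h₀) zp) ≠ 0 := by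
  intro h0
  have h1 := cx θ φ h.toPre g₀ h₀ hzp
  rw [hfix, h0, map_zero, map_zero] at h1
  exact hzp0 (smul_eq_zero_of_isUnit (h.ux.map θ) h1.symm)

/-! ### the lattice -/

/-- the map `R² → V`, `v ↦ v 0 • z⁺ + v 1 • e⁻ (r h₀) z⁺` -/
def jLin (r : G →* E) (c h₀ : G) (φ : E →+* Module.End R V) (zp : V) : (Fin 2 → R) →ₗ[R] V :=
  (LinearMap.proj (R := R) (φ := fun _ : Fin 2 => R) 0).smulRight zp +
    (LinearMap.proj (R := R) (φ := fun _ : Fin 2 => R) 1).smulRight
      (φ (em (T := T) r c) (φ (r h₀) zp))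

theorem jLin_apply (zp : V) (v : Fin 2 → R) :
    jLin (T := T) r c h₀ φ zp v = v 0 • zp + v 1 • φ (em (T := T) r c) (φ (r h₀) zp) := rfl

theorem jLin_mem (zp : V) (hzp : zp ∈ eigenSub θ φ) (v : Fin 2 → R) :
    jLin (T := T) r c h₀ φ zp v ∈ eigenSub θ φ := by
  rw [jLin_apply]
  exact Submodule.add_mem _ (Submodule.smul_mem _ _ hzp)
    (Submodule.smul_mem _ _ (phi_mem θ φ _ (phi_mem θ φ _ hzp)))

theorem jLin_injective (h : Input r t d c g₀ h₀)
    (htf : ∀ (a : R) (v : V), a • v = 0 → a = 0 ∨ v = 0) {zp : V} (hzp : zp ∈ eigenSub θ φ)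
    (hfix : φ (ep (T := T) r c) zp = zp) (hzp0 : zp ≠ 0) :
    Function.Injective (jLin (T := T) r c h₀ φ zp) := by
  have hP := h.toPre
  rw [injective_iff_map_eq_zero]
  intro v hv
  rw [jLin_apply] at hv
  have hm0 := minus_ne_zero θ φ h hzp hfix hzp0
  have h1 := congrArg (fun w => φ (ep (T := T) r c) w) hv
  simp only [map_add, map_smul, map_zero, hfix, phi_ep_em φ hP, smul_zero, add_zero] at h1
  have h2 := congrArg (fun w => φ (em (T := T) r c) w) hv
  simp only [map_add, map_smul, map_zero, phi_em_em φ hP] at h2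
  have h3 : φ (em (T := T) r c) zp = 0 := by
    rw [← hfix, phi_em_ep φ hP]
  rw [h3, smul_zero, zero_add] at h2
  have e0 : v 0 = 0 := (htf _ _ h1).resolve_right hzp0
  have e1 : v 1 = 0 := (htf _ _ h2).resolve_right hm0
  funext i
  fin_cases i
  · exact e0
  · exact e1

theorem map_fin_two (a b a' b' : T) :
    (!![a, b; a', b'] : Matrix (Fin 2) (Fin 2) T).map θ = !![θ a, θ b; θ a', θ b'] := by
  ext i j
  fin_cases i <;> fin_cases j <;> rfl

theorem jLin_toLin'_aux (zp zm : V) (a b a' b' : R) (v : Fin 2 → R) :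
    v 0 • (a • zp + a' • zm) + v 1 • (b • zp + b' • zm) =
      (Matrix.toLin' !![a, b; a', b'] v) 0 • zp + (Matrix.toLin' !![a, b; a', b'] v) 1 • zm := by
  rw [Matrix.toLin'_apply]
  simp only [Matrix.mulVec, dotProduct, Fin.sum_univ_two, Matrix.of_apply,
    Matrix.cons_val_zero, Matrix.cons_val_one, Matrix.cons_val', Matrix.cons_val_fin_one]
  simp only [smul_add, add_smul, smul_smul]
  rw [mul_comm (v 0), mul_comm (v 0), mul_comm (v 1), mul_comm (v 1)]
  abel

/-- **equivariance**: `r g` acts on the lattice through the matrix `θ (ρ_T g)` -/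
theorem phi_r_jLin (h : Input r t d c g₀ h₀) (g : G) {zp : V} (hzp : zp ∈ eigenSub θ φ)
    (hfix : φ (ep (T := T) r c) zp = zp) (v : Fin 2 → R) :
    φ (r g) (jLin (T := T) r c h₀ φ zp v) =
      jLin (T := T) r c h₀ φ zp (Matrix.toLin' ((rep h g).map θ) v) := by
  rw [jLin_apply, jLin_apply, map_add, map_smul, map_smul, act_plus θ φ h g hzp hfix,
    act_minus θ φ h g hzp hfix, rep_apply, map_fin_two]
  exact jLin_toLin'_aux zp _ _ _ _ _ v

theorem det_toLin'_rep (h : Input r t d c g₀ h₀) (g : G) :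
    LinearMap.det (Matrix.toLin' ((rep h g).map θ)) = θ (d g) := by
  rw [LinearMap.det_toLin']
  have : (rep h g).map θ = θ.mapMatrix (rep h g) := rfl
  rw [this, ← RingHom.map_det, det_rep]

theorem toLin'_rep_eq_id (h : Input r t d c g₀ h₀) (g : G) (hg : (rep h g).map θ = 1) :
    Matrix.toLin' ((rep h g).map θ) = LinearMap.id := by
  rw [hg, Matrix.toLin'_one]

/-- **(POINT)**: the rank-two lattice attached to an eigenvector of `T` -/
theorem exists_lattice (h : Input r t d c g₀ h₀)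
    (htf : ∀ (a : R) (v : V), a • v = 0 → a = 0 ∨ v = 0) {z : V} (hz0 : z ≠ 0)
    (hz : ∀ s : T, φ (algebraMap T E s) z = θ s • z) :
    ∃ j : (Fin 2 → R) →ₗ[R] V, Function.Injective j ∧
      (∀ (s : T) (v : Fin 2 → R), φ (algebraMap T E s) (j v) = θ s • j v) ∧
      (∀ (g : G) (v : Fin 2 → R), φ (r g) (j v) = j (Matrix.toLin' ((rep h g).map θ) v)) := by
  obtain ⟨zp, hzp, hzp0, hfix⟩ := exists_plus θ φ h (z := z) hz hz0
  exact ⟨jLin (T := T) r c h₀ φ zp, jLin_injective θ φ h htf hzp hfix hzp0,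
    fun s v => jLin_mem θ φ zp hzp v s, fun g v => phi_r_jLin θ φ h g hzp hfix v⟩

end Fermat.Agent.S43.Exit.Point
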