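/-
PROJECT R (S43), THE EXIT N6 (helper1), brick (TORSION): `Exit/Point` AT `V := Λ[𝔭]`.

`T` a commutative ring, `Λ` a `T`-module, `E := End_T Λ`, `hin : CH.Input r t d c g₀ h₀` with
`r : G →* End_T Λ`; `𝔭` an ideal of `T`.  The `𝔭`-torsion `Λ[𝔭]` is a module over `T ⧸ 𝔭` (Mathlib's
instance) stable under `End_T Λ` (`resEnd`), and EVERY element of it is an eigenvector of `T` with
eigencharacter `T → T ⧸ 𝔭`.  Hence (`Exit/Point.exists_lattice`): if `Λ[𝔭] ≠ 0` has no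
`T ⧸ 𝔭`-torsion, there is an injective additive `j : (T ⧸ 𝔭)² → Λ` with `a • j v = j (ā • v)` and
`r g (j v) = j (ρ_T(g) mod 𝔭 · v)`.  No tensor product.
-/
import Fermat.Agent.S43.Exit.Point

set_option autoImplicit false
set_option linter.unusedSectionVars false
set_option linter.unusedVariables false

noncomputable section

namespace Fermat.Agent.S43.Exit.Torsion

open Matrix Fermat.Agent.S43.Rho

variable {T : Type*} [CommRing T] {Λ : Type*} [AddCommGroup Λ] [Module T Λ]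

theorem smul_eq_zero_of_mem (𝔭 : Ideal T) (v : Submodule.torsionBySet T Λ (𝔭 : Set T)) {a : T}
    (ha : a ∈ 𝔭) : a • (v : Λ) = 0 :=
  (Submodule.mem_torsionBySet_iff (𝔭 : Set T) (v : Λ)).mp v.2 ⟨a, ha⟩

theorem coe_mk_smul (𝔭 : Ideal T) (b : T) (v : Submodule.torsionBySet T Λ (𝔭 : Set T)) :
    ((Ideal.Quotient.mk 𝔭 b • v : Submodule.torsionBySet T Λ (𝔭 : Set T)) : Λ) = b • (v : Λ) :=
  rfl

/-- a `T`-linear endomorphism of `Λ` preserves the `𝔭`-torsion -/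
theorem apply_mem (𝔭 : Ideal T) (e : Module.End T Λ)
    (v : Submodule.torsionBySet T Λ (𝔭 : Set T)) :
    e (v : Λ) ∈ Submodule.torsionBySet T Λ (𝔭 : Set T) := by
  rw [Submodule.mem_torsionBySet_iff]
  rintro ⟨a, ha⟩
  show a • e (v : Λ) = 0
  rw [← map_smul, smul_eq_zero_of_mem 𝔭 v ha, map_zero]

/-- **the restriction of `End_T Λ` to the `𝔭`-torsion**, with values in the `T ⧸ 𝔭`-linear
endomorphisms -/
def resEnd (𝔭 : Ideal T) :
    Module.End T Λ →+* Module.End (T ⧸ 𝔭) (Submodule.torsionBySet T Λ (𝔭 : Set T)) where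
  toFun e :=
    { toFun := fun v => ⟨e (v : Λ), apply_mem 𝔭 e v⟩
      map_add' := fun v w => Subtype.ext (map_add e (v : Λ) (w : Λ))
      map_smul' := fun b v => by
        obtain ⟨b, rfl⟩ := Ideal.Quotient.mk_surjective b
        apply Subtype.ext
        show e ((Ideal.Quotient.mk 𝔭 b • v : Submodule.torsionBySet T Λ (𝔭 : Set T)) : Λ) =
          b • e (v : Λ)
        rw [coe_mk_smul, map_smul] }
  map_one' := LinearMap.ext fun v => Subtype.ext rfl
  map_mul' e e' := LinearMap.ext fun v => Subtype.ext rfl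
  map_zero' := LinearMap.ext fun v => Subtype.ext rfl
  map_add' e e' := LinearMap.ext fun v => Subtype.ext rfl

theorem coe_resEnd_apply (𝔭 : Ideal T) (e : Module.End T Λ)
    (v : Submodule.torsionBySet T Λ (𝔭 : Set T)) : ((resEnd 𝔭 e v : _) : Λ) = e (v : Λ) := rfl

/-- every element of `Λ[𝔭]` is an eigenvector of `T` with eigencharacter `T → T ⧸ 𝔭` -/
theorem resEnd_algebraMap (𝔭 : Ideal T) (s : T) (v : Submodule.torsionBySet T Λ (𝔭 : Set T)) :
    resEnd 𝔭 (algebraMap T (Module.End T Λ) s) v = Ideal.Quotient.mk 𝔭 s • v := by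
  apply Subtype.ext
  rw [coe_resEnd_apply, coe_mk_smul, Module.algebraMap_end_apply]

/-- **(TORSION)**: the rank-two lattice inside `Λ[𝔭]` -/
theorem exists_lattice_torsion [Invertible (2 : T)] {G : Type*} [Group G]
    {r : G →* Module.End T Λ} {t : G → T} {d : G →* T} {c g₀ h₀ : G}
    (hin : CH.Input r t d c g₀ h₀) (𝔭 : Ideal T)
    (htf : ∀ (a : T) (v : Λ), a ∉ 𝔭 → (∀ b ∈ 𝔭, b • v = 0) → a • v = 0 → v = 0)
    (x : Λ) (hx0 : x ≠ 0) (hx : ∀ b ∈ 𝔭, b • x = 0) :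
    ∃ j : (Fin 2 → T ⧸ 𝔭) →+ Λ, Function.Injective j ∧
      (∀ (a : T) (v : Fin 2 → T ⧸ 𝔭), a • j v = j (Ideal.Quotient.mk 𝔭 a • v)) ∧
      (∀ (g : G) (v : Fin 2 → T ⧸ 𝔭),
        r g (j v) = j (Matrix.toLin' ((CH.rep hin g).map (Ideal.Quotient.mk 𝔭)) v)) := by
  set V := Submodule.torsionBySet T Λ (𝔭 : Set T) with hV
  have hxV : x ∈ V := by
    rw [hV, Submodule.mem_torsionBySet_iff]
    rintro ⟨b, hb⟩
    exact hx b hb
  have htf' : ∀ (a : T ⧸ 𝔭) (v : V), a • v = 0 → a = 0 ∨ v = 0 := by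
    intro a v hav
    obtain ⟨a, rfl⟩ := Ideal.Quotient.mk_surjective a
    by_cases ha : a ∈ 𝔭
    · exact Or.inl (Ideal.Quotient.eq_zero_iff_mem.mpr ha)
    · refine Or.inr (Subtype.ext ?_)
      have h1 : a • (v : Λ) = 0 := by
        rw [← coe_mk_smul, hav]
        rfl
      exact htf a (v : Λ) ha (fun b hb => smul_eq_zero_of_mem 𝔭 v hb) h1
  have hz0 : (⟨x, hxV⟩ : V) ≠ 0 := fun h => hx0 (congrArg Subtype.val h)
  obtain ⟨j, hj, heig, hact⟩ := Fermat.Agent.S43.Exit.Point.exists_lattice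
    (Ideal.Quotient.mk 𝔭) (resEnd 𝔭) hin htf' hz0 (fun s => resEnd_algebraMap 𝔭 s _)
  refine ⟨V.subtype.toAddMonoidHom.comp j.toAddMonoidHom, ?_, ?_, ?_⟩
  · exact (Subtype.val_injective).comp hj
  · intro a v
    show a • ((j v : V) : Λ) = ((j (Ideal.Quotient.mk 𝔭 a • v) : V) : Λ)
    rw [map_smul, coe_mk_smul]
  · intro g v
    show r g ((j v : V) : Λ) = ((j (Matrix.toLin' ((CH.rep hin g).map (Ideal.Quotient.mk 𝔭)) v) : V) : Λ)
    rw [← hact g v, coe_resEnd_apply]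

end Fermat.Agent.S43.Exit.Torsion
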