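/-
PROJECT R (S43), THE EXIT N6 (helper1), THE ADAPTER: **FROM THE PATCHED POINT TO
`ModularRepOfLevel M`.**

Level-zero datum of L1 (chief's ruling: on the `J₀(M ℓ)` side): `Lam0` a finite torsion-free
`O`-module with commuting operators `t`, a Galois action `r0` and an injective additive
`e : Lam0 → O ⊗ T_p J₀(M ℓ)` intertwining `r0` with `rhoV` and `t (idx r)` with `T_r` (`Lam0` itself
`= O ⊗ T_p J₀(M ℓ)`, `e = id`: `Exit/OfPointTate`); `m` a maximal ideal of the polynomial Hecke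
algebra, `T₀ := Lam.T O m (WithOps t hcomm)` acting on `Λ := Loc m (WithOps t hcomm)`,
`h : Dens.Datum ..`, `hin : CH.Input (Dens.rT h) (Dens.tT h) (Glue.dHom ε T₀) c g₀ h₀` (helper15's
`Rho/Exists`), and a prime `𝔭` of `T₀` with `𝔭 ∩ O = ⊥` at which `ρ_T mod 𝔭` is trivial on the inertia
group at `A ∣ ℓ`.  Then `P.ModularRepOfLevel M` (`modularRepOfLevel_of_point_of_embedding`).

* `exists_lattice_of_prime` (abstract `T ⊆ End Λ`): `Exit/Assoc` (a non-zero element of `Λ[𝔭]`, no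
  `T ⧸ 𝔭`-torsion) + `Exit/Torsion` (the rank-two lattice `(T ⧸ 𝔭)² → Λ[𝔭]`);
* `det_rep_of_prime`, `exists_ideal_of_prime` (`T ⧸ 𝔭` has characteristic `0`; its maximal ideal);
* `exists_lattice_of_ops` : the lattice pushed into `Lam0` by `Exit/Section`;
* `of_ops` : the whole package in continuation-passing form (the ring `T₀ ⧸ 𝔭` is handed over as an
  abstract domain: the consumer never unfolds an instance on `T₀`);
* `modularRepOfLevel_of_point_of_embedding` : `of_ops` + `Exit/MainAdd`.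

The commutative ring structure on `T₀` is the one of the scope `IsMulCommutative` (as in `Rho/Glue`,
`Rho/Exists`), made a local instance of priority `1100` so that it wins over `Lam.instCommRingT`.
-/
import Fermat.Agent.S43.Exit.Assoc
import Fermat.Agent.S43.Exit.Section
import Fermat.Agent.S43.Exit.Torsion
import Fermat.Agent.S43.Exit.MainAdd
import Fermat.Agent.S43.Rho.Glue
import Fermat.Agent.S43.Rho.LamDatum
import Fermat.Agent.S43.Rho.LamFree

set_option autoImplicit false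
set_option linter.unusedSectionVars false
set_option linter.unusedVariables false
set_option linter.style.haveILetI false

noncomputable section

namespace Fermat.Agent.S43.Exit.OfPoint

open Matrix IsLocalRing
open Fermat.Agent.S31.Core (Qbar GQ smallEnd)
open Fermat.Agent.S43.Rho

section datum

open scoped IsMulCommutative

variable {R₀ : Type} [CommRing R₀] {Λ : Type} [AddCommGroup Λ] [Module R₀ Λ]
  {Sg : Finset ℕ} {I₀ : Ideal R₀} {r : GQ →* Module.End R₀ Λ} {ε : GQ →* R₀}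
  {T : Subalgebra R₀ (Module.End R₀ Λ)} [IsMulCommutative ↥T] [Invertible (2 : ↥T)]

attribute [local instance] Glue.smulCommClassT Glue.algebraEnd

/-- **the rank-two lattice attached to a prime of the Hecke algebra with trivial contraction** -/
theorem exists_lattice_of_prime [IsDomain R₀] [IsNoetherianRing R₀] [Module.Finite R₀ Λ]
    (hΛ : ∀ (c : R₀) (v : Λ), c ≠ 0 → c • v = 0 → v = 0)
    (h : Dens.Datum Sg I₀ r ε T) {c g₀ h₀ : GQ}
    (hin : CH.Input (E := Module.End ↥T Λ) (Dens.rT h) (Dens.tT h) (Glue.dHom ε T) c g₀ h₀)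
    (𝔭 : Ideal ↥T) [𝔭.IsPrime] (h𝔭 : 𝔭.comap (algebraMap R₀ ↥T) = ⊥) :
    ∃ j : (Fin 2 → ↥T ⧸ 𝔭) →+ Λ, Function.Injective j ∧
      (∀ (a : ↥T) (v : Fin 2 → ↥T ⧸ 𝔭),
        (a : Module.End R₀ Λ) (j v) = j (Ideal.Quotient.mk 𝔭 a • v)) ∧
      (∀ (g : GQ) (v : Fin 2 → ↥T ⧸ 𝔭),
        r g (j v) = j (Matrix.toLin' ((CH.rep hin g).map (Ideal.Quotient.mk 𝔭)) v)) := by
  have hN : IsNoetherian R₀ (Module.End R₀ Λ) := isNoetherian_linearMap R₀ Λ Λ
  have hN2 : IsNoetherian R₀ (Subalgebra.toSubmodule T) := isNoetherian_submodule' _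
  haveI hfinT : Module.Finite R₀ ↥T := Module.IsNoetherian.finite R₀ (Subalgebra.toSubmodule T)
  haveI : Algebra.IsIntegral R₀ ↥T := Algebra.IsIntegral.of_finite R₀ ↥T
  haveI : IsNoetherianRing ↥T := IsNoetherianRing.of_finite R₀ ↥T
  haveI : Module.Finite ↥T Λ := Module.Finite.of_restrictScalars_finite R₀ ↥T Λ
  have hfaith : ∀ a : ↥T, (∀ v : Λ, a • v = 0) → a = 0 := fun a ha =>
    Subtype.ext (LinearMap.ext ha)
  obtain ⟨x, hx0, hx⟩ := Fermat.Agent.S43.Exit.Assoc.exists_ne_zero_smul_eq_zero_iff (O := R₀)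
    hfaith 𝔭 h𝔭
  have htf : ∀ (a : ↥T) (v : Λ), a ∉ 𝔭 → (∀ b ∈ 𝔭, b • v = 0) → a • v = 0 → v = 0 :=
    fun a v ha hv hav =>
      Fermat.Agent.S43.Exit.Assoc.eq_zero_of_smul_eq_zero (O := R₀)
        (fun c w hc hcw => hΛ c w hc (by rwa [algebraMap_smul] at hcw)) 𝔭 a ha v hv hav
  obtain ⟨j, hj, hjT, hjr⟩ := Fermat.Agent.S43.Exit.Torsion.exists_lattice_torsion hin 𝔭 htf x
    hx0 (fun b hb => (hx b).mpr hb)
  exact ⟨j, hj, fun a v => hjT a v, fun g v => hjr g v⟩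

/-- the determinant of `ρ_T(g) mod 𝔭` at an element where `ε` takes an integer value -/
theorem det_rep_of_prime (h : Dens.Datum Sg I₀ r ε T) {c g₀ h₀ : GQ}
    (hin : CH.Input (E := Module.End ↥T Λ) (Dens.rT h) (Dens.tT h) (Glue.dHom ε T) c g₀ h₀)
    (𝔭 : Ideal ↥T) (g : GQ) (n : ℕ) (hn : ε g = (n : R₀)) :
    LinearMap.det (Matrix.toLin' ((CH.rep hin g).map (Ideal.Quotient.mk 𝔭))) =
      ((n : ℕ) : ↥T ⧸ 𝔭) := by
  rw [Fermat.Agent.S43.Exit.Point.det_toLin'_rep, Glue.dHom_apply, hn, map_natCast, map_natCast]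

/-- a surjective ring homomorphism between local rings maps non-units into the maximal ideal -/
theorem map_mem_maximalIdeal {A B : Type*} [CommRing A] [CommRing B] [IsLocalRing A]
    [IsLocalRing B] (f : A →+* B) (hf : Function.Surjective f) {x : A}
    (hx : ¬ IsUnit x) : f x ∈ maximalIdeal B := by
  haveI : IsLocalHom f := IsLocalHom.of_surjective f hf
  rw [mem_maximalIdeal, mem_nonunits_iff]
  exact fun hu => hx (isUnit_of_map_unit f x hu)

/-- **the ring of eigenvalues `T ⧸ 𝔭`**: characteristic `0`, and an ideal `𝔪` with `1 - c` a unit for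
`c ∈ 𝔪` which contains the image of the non-units of `T` -/
theorem exists_ideal_of_prime [CharZero R₀] [IsLocalRing ↥T] (𝔭 : Ideal ↥T) [𝔭.IsPrime]
    (h𝔭 : 𝔭.comap (algebraMap R₀ ↥T) = ⊥) :
    CharZero (↥T ⧸ 𝔭) ∧ ∃ 𝔪 : Ideal (↥T ⧸ 𝔭), (∀ c ∈ 𝔪, IsUnit (1 - c)) ∧
      ∀ a : ↥T, ¬ IsUnit a → Ideal.Quotient.mk 𝔭 a ∈ 𝔪 := by
  have hinjO : Function.Injective ((Ideal.Quotient.mk 𝔭).comp (algebraMap R₀ ↥T)) := by
    rw [injective_iff_map_eq_zero]
    intro a ha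
    have h1 : a ∈ 𝔭.comap (algebraMap R₀ ↥T) := by
      rw [Ideal.mem_comap, ← Ideal.Quotient.eq_zero_iff_mem]
      exact ha
    rw [h𝔭] at h1
    exact h1
  refine ⟨charZero_of_injective_ringHom hinjO, ?_⟩
  haveI : Nontrivial (↥T ⧸ 𝔭) :=
    Ideal.Quotient.nontrivial_iff.mpr (Ideal.IsPrime.ne_top inferInstance)
  haveI : IsLocalRing (↥T ⧸ 𝔭) :=
    IsLocalRing.of_surjective' (Ideal.Quotient.mk 𝔭) Ideal.Quotient.mk_surjective
  exact ⟨maximalIdeal (↥T ⧸ 𝔭), fun c hc => IsLocalRing.isUnit_one_sub_self_of_mem_nonunits c hc,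
    fun a ha => map_mem_maximalIdeal (A := ↥T) (B := ↥T ⧸ 𝔭) (Ideal.Quotient.mk 𝔭)
      Ideal.Quotient.mk_surjective ha⟩

end datum


section lamworld

open Fermat.Agent.S43.Rho.Lam

variable (O : Type) [CommRing O] {J : Type} (m : Ideal (MvPolynomial J O)) [m.IsMaximal]
  (N : Type) [AddCommGroup N] [Module O N] [Module (MvPolynomial J O) N]
  [IsScalarTower O (MvPolynomial J O) N]

theorem ofP_C (a : O) : ofP O m N (MvPolynomial.C a) = algebraMap O ↥(T O m N) a := by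
  rw [← MvPolynomial.algebraMap_eq, AlgHom.commutes]

theorem isLocalRing_T [Nontrivial (Loc m N)] : IsLocalRing ↥(T O m N) := inferInstance

theorem not_isUnit_ofP [Nontrivial (Loc m N)] {Q : MvPolynomial J O} (hQ : Q ∈ m) :
    ¬ IsUnit (ofP O m N Q) := by
  have h1 := ofP_mem_maximalIdeal O m N hQ
  rwa [mem_maximalIdeal, mem_nonunits_iff] at h1

end lamworld

section ops

open scoped IsMulCommutative
open Fermat.Agent.S43.Rho.Lam Fermat.Agent.S43.Rho.LamDatum Fermat.Agent.S43.Hecke.PolyModule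

attribute [local instance] Glue.smulCommClassT Glue.algebraEnd
attribute [local instance 1100] IsMulCommutative.instCommRing

variable (O : Type) [CommRing O] [IsDomain O] [IsLocalRing O] [IsNoetherianRing O]
  [IsAdicComplete (maximalIdeal O) O]
  {Lam0 : Type} [AddCommGroup Lam0] [Module O Lam0] [Module.Finite O Lam0]
  [Module.IsTorsionFree O Lam0]
  {J : Type} (t : J → Module.End O Lam0) (hcomm : ∀ i j, Commute (t i) (t j))
  (m : Ideal (MvPolynomial J O)) [m.IsMaximal]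
  (r0 : GQ →* Module.End O Lam0) (hr0 : ∀ g j, Commute (r0 g) (t j))
  [IsMulCommutative ↥(T O m (WithOps t hcomm))] [Invertible (2 : ↥(T O m (WithOps t hcomm)))]
  {ε : GQ →* O} {Sg : Finset ℕ} {I₀ : Ideal O}

/-- **the rank-two lattice inside the un-localised Hecke-Galois module `Lam0`** -/
theorem exists_lattice_of_ops
    (h : Dens.Datum Sg I₀ (rLam O t hcomm m r0 hr0) ε (T O m (WithOps t hcomm)))
    {c g₀ h₀ : GQ}
    (hin : CH.Input (E := Module.End ↥(T O m (WithOps t hcomm)) (Loc m (WithOps t hcomm)))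
      (Dens.rT h) (Dens.tT h) (Glue.dHom ε (T O m (WithOps t hcomm))) c g₀ h₀)
    (𝔭 : Ideal ↥(T O m (WithOps t hcomm))) [𝔭.IsPrime]
    (h𝔭 : 𝔭.comap (algebraMap O ↥(T O m (WithOps t hcomm))) = ⊥) :
    Nontrivial (Loc m (WithOps t hcomm)) ∧
    ∃ j : (Fin 2 → ↥(T O m (WithOps t hcomm)) ⧸ 𝔭) →+ Lam0, Function.Injective j ∧
      (∀ (i : J) (v : Fin 2 → ↥(T O m (WithOps t hcomm)) ⧸ 𝔭), t i (j v) =
        j (Ideal.Quotient.mk 𝔭 (ofP O m (WithOps t hcomm) (MvPolynomial.X i)) • v)) ∧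
      (∀ (g : GQ) (v : Fin 2 → ↥(T O m (WithOps t hcomm)) ⧸ 𝔭), r0 g (j v) =
        j (Matrix.toLin' ((CH.rep hin g).map (Ideal.Quotient.mk 𝔭)) v)) := by
  classical
  haveI hfinN : Module.Finite O (WithOps t hcomm) := inferInstanceAs (Module.Finite O Lam0)
  haveI hfinL : Module.Finite O (Loc m (WithOps t hcomm)) :=
    Fermat.Agent.S43.Hecke.FinLoc.finite_localizedModule (𝒪 := O) m
  have hΛ : ∀ (c : O) (v : Loc m (WithOps t hcomm)), c ≠ 0 → c • v = 0 → v = 0 :=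
    fun c v hc hcv => LamFree.eq_zero_of_smul_eq_zero O m (WithOps t hcomm) c
      (fun x hx => (smul_eq_zero_iff_right (M := Lam0) hc).mp hx) v hcv
  -- the lattice in the localisation
  obtain ⟨j₁, hj₁, hjT, hjr⟩ := exists_lattice_of_prime hΛ h hin 𝔭 h𝔭
  -- the section
  obtain ⟨s₀, ι, hι, -, hιf⟩ :=
    Fermat.Agent.S43.Exit.Section.exists_section_of_complete O m (WithOps t hcomm)
  haveI : Nontrivial (↥(T O m (WithOps t hcomm)) ⧸ 𝔭) :=
    Ideal.Quotient.nontrivial_iff.mpr (Ideal.IsPrime.ne_top inferInstance)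
  refine ⟨hj₁.nontrivial, (WithOps.equiv t hcomm).toLinearMap.toAddMonoidHom.comp
    (ι.toAddMonoidHom.comp j₁), ?_, ?_, ?_⟩
  · exact (WithOps.equiv t hcomm).injective.comp (hι.comp hj₁)
  · intro i v
    show t i (WithOps.equiv t hcomm (ι (j₁ v))) = WithOps.equiv t hcomm (ι (j₁ _))
    rw [← hjT, ← WithOps.X_smul, ← map_smul ι, ← Lam.smul_def, ofP_smul]
  · intro g v
    show r0 g (WithOps.equiv t hcomm (ι (j₁ v))) = WithOps.equiv t hcomm (ι (j₁ _))
    rw [← hjr, rLam_apply]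
    have h1 : locComm O t hcomm m (rC O t r0 hr0 g) (j₁ v) =
        locEnd O m (WithOps t hcomm) (toEndP O t hcomm (rC O t r0 hr0 g)) (j₁ v) := rfl
    rw [h1, hιf, toEndP_apply, coe_rC]

/-- **the package for the exit**, in continuation-passing form: the ring of eigenvalues
`R = T₀ ⧸ 𝔭` is handed over as an abstract domain of characteristic `0`, with the ideal `𝔪`, the
lattice `j : R² → Lam0`, the Frobenius matrix `F` and the eigenvalues `θ` -/
theorem of_ops {Goal : Prop} [CharZero O]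
    (h : Dens.Datum Sg I₀ (rLam O t hcomm m r0 hr0) ε (T O m (WithOps t hcomm)))
    {c g₀ h₀ : GQ}
    (hin : CH.Input (E := Module.End ↥(T O m (WithOps t hcomm)) (Loc m (WithOps t hcomm)))
      (Dens.rT h) (Dens.tT h) (Glue.dHom ε (T O m (WithOps t hcomm))) c g₀ h₀)
    (𝔭 : Ideal ↥(T O m (WithOps t hcomm))) [𝔭.IsPrime]
    (h𝔭 : 𝔭.comap (algebraMap O ↥(T O m (WithOps t hcomm))) = ⊥)
    (p : ℕ) (hpm : (MvPolynomial.C (p : O) : MvPolynomial J O) ∈ m)
    (idx : ℕ → J) (good : ℕ → Prop) (a : ℕ → ℤ)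
    (hcongm : ∀ r : ℕ, good r →
      (MvPolynomial.X (idx r) - MvPolynomial.C (((a r : ℤ) : O)) : MvPolynomial J O) ∈ m)
    (σ : GQ) (ℓ : ℕ) (hεσ : ε σ = (ℓ : O))
    (I : Set GQ) (hunr : ∀ τ ∈ I, (CH.rep hin τ).map (Ideal.Quotient.mk 𝔭) = 1)
    (K : ∀ (R : Type) [CommRing R] [IsDomain R] [CharZero R] (𝔪 : Ideal R)
      (_ : ∀ c ∈ 𝔪, IsUnit (1 - c)) (_ : ((p : ℕ) : R) ∈ 𝔪)
      (j : (Fin 2 → R) →+ Lam0) (_ : Function.Injective j) (F : Module.End R (Fin 2 → R))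
      (_ : ∀ v, j (F v) = r0 σ (j v)) (_ : LinearMap.det F = ((ℓ : ℕ) : R))
      (_ : ∀ τ ∈ I, ∀ v, r0 τ (j v) = j v) (θ : ℕ → R)
      (_ : ∀ (r : ℕ) (v : Fin 2 → R), t (idx r) (j v) = j (θ r • v))
      (_ : ∀ r : ℕ, good r → θ r - ((a r : ℤ) : R) ∈ 𝔪), Goal) : Goal := by
  obtain ⟨hnt, j, hj, hjt, hjr⟩ := exists_lattice_of_ops O t hcomm m r0 hr0 h hin 𝔭 h𝔭
  haveI := hnt
  haveI hloc : IsLocalRing ↥(T O m (WithOps t hcomm)) := isLocalRing_T O m (WithOps t hcomm)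
  obtain ⟨hchar, 𝔪, h𝔪, hmem𝔪⟩ := exists_ideal_of_prime (R₀ := O) 𝔭 h𝔭
  haveI := hchar
  haveI : IsDomain (↥(T O m (WithOps t hcomm)) ⧸ 𝔭) := Ideal.Quotient.isDomain 𝔭
  have hp𝔪 : ((p : ℕ) : ↥(T O m (WithOps t hcomm)) ⧸ 𝔭) ∈ 𝔪 := by
    have h1 := hmem𝔪 _ (not_isUnit_ofP O m (WithOps t hcomm) hpm)
    rwa [ofP_C, map_natCast, map_natCast] at h1
  refine K (↥(T O m (WithOps t hcomm)) ⧸ 𝔭) 𝔪 h𝔪 hp𝔪 j hj
    (Matrix.toLin' ((CH.rep hin σ).map (Ideal.Quotient.mk 𝔭))) (fun v => (hjr σ v).symm)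
    (det_rep_of_prime h hin 𝔭 σ ℓ hεσ) ?_
    (fun r => Ideal.Quotient.mk 𝔭 (ofP O m (WithOps t hcomm) (MvPolynomial.X (idx r))))
    (fun r v => hjt (idx r) v) ?_
  · intro τ hτ v
    rw [hjr τ v, hunr τ hτ, Matrix.toLin'_one, LinearMap.id_apply]
  · intro r hr
    have h1 := hmem𝔪 _ (not_isUnit_ofP O m (WithOps t hcomm) (hcongm r hr))
    rwa [map_sub, ofP_C, map_intCast, map_sub, map_intCast] at h1

end ops

section concrete

open scoped IsMulCommutative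
open TensorProduct ModularCurve AlgebraicCurve FreyPackage
open Fermat.Agent.S30.Padic.TateModule Fermat.Agent.S30.Padic.Assembly
open Fermat.Agent.S30.Arith.TateInputs
open Fermat.Agent.S43.Rho.Lam Fermat.Agent.S43.Rho.LamDatum Fermat.Agent.S43.Hecke.PolyModule

attribute [local instance] Glue.smulCommClassT Glue.algebraEnd
attribute [local instance 1100] IsMulCommutative.instCommRing

/-- **THE ADAPTER, GENERAL FORM**: the Hecke-Galois module `Lam0` is ANY finite torsion-free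
`O`-module with commuting operators `t` and a Galois action `r0`, together with an injective additive
map `e : Lam0 → O ⊗ T_p J₀(M ℓ)` intertwining `r0` with `rhoV` and `t (idx r)` with the Hecke operator
`T_r` at the good primes `r ∤ M ℓ p` (`Lam0 = O ⊗ T_p J₀(M ℓ)`, `e = id` is
`modularRepOfLevel_of_point`). -/
theorem modularRepOfLevel_of_point_of_embedding (P : FreyPackage) [Fact P.p.Prime] {M ℓ : ℕ}
    [NeZero M] [hℓ : Fact ℓ.Prime] [NeZero ℓ] [NeZero (M * ℓ)] (hℓM : ¬ ℓ ∣ M) (hpℓ : P.p ≠ ℓ)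
    (W : WeierstrassCurve ℤ) (hW : W.IsIntegralModelOf P.freyCurve)
    (hbad : ¬ W.IsGoodPrimeFor ℓ)
    {A : ValuationSubring Qbar} (hA : A.LiesOverPrime ℓ) {σ : GQ} (hσ : A.IsFrobeniusAt σ ℓ)
    (O : Type) [CommRing O] [IsDomain O] [CharZero O] [Algebra ℤ_[P.p] O]
    [Module.IsTorsionFree ℤ_[P.p] O] [IsLocalRing O] [IsNoetherianRing O]
    [IsAdicComplete (maximalIdeal O) O]
    {Lam0 : Type} [AddCommGroup Lam0] [Module O Lam0] [Module.Finite O Lam0]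
    [Module.IsTorsionFree O Lam0]
    {J : Type} (t : J → Module.End O Lam0) (hcomm : ∀ i j, Commute (t i) (t j))
    (m : Ideal (MvPolynomial J O)) [m.IsMaximal]
    (hpm : (MvPolynomial.C (P.p : O) : MvPolynomial J O) ∈ m)
    (r0 : GQ →* Module.End O Lam0) (hr0 : ∀ g j, Commute (r0 g) (t j))
    (e : Lam0 →+ O ⊗[ℤ_[P.p]] Tp P.p (JZero (M * ℓ))) (he : Function.Injective e)
    (her : ∀ (g : GQ) (x : Lam0), e (r0 g x) = rhoV P.p O (JZero (M * ℓ)) g (e x))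
    (idx : ℕ → J)
    (het : ∀ (r : ℕ) (hr : r.Prime), W.IsGoodPrimeFor r → ¬ r ∣ M * ℓ → r ≠ P.p → ∀ x : Lam0,
      e (t (idx r) x) =
        opVHom P.p O (JZero (M * ℓ)) (heckeEnd (M * ℓ) (⟨r, hr⟩ : Nat.Primes)) (e x))
    (hcongm : ∀ r : ℕ, r.Prime → W.IsGoodPrimeFor r → ¬ r ∣ M * ℓ → r ≠ P.p →
      (MvPolynomial.X (idx r) - MvPolynomial.C (((W.apOfModel r : ℤ) : O)) :
        MvPolynomial J O) ∈ m)
    [IsMulCommutative ↥(T O m (WithOps t hcomm))] [Invertible (2 : ↥(T O m (WithOps t hcomm)))]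
    (ε : GQ →* O) (Sg : Finset ℕ) (I₀ : Ideal O)
    (h : Dens.Datum Sg I₀ (rLam O t hcomm m r0 hr0) ε (T O m (WithOps t hcomm)))
    {c g₀ h₀ : GQ}
    (hin : CH.Input (E := Module.End ↥(T O m (WithOps t hcomm)) (Loc m (WithOps t hcomm)))
      (Dens.rT h) (Dens.tT h) (Glue.dHom ε (T O m (WithOps t hcomm))) c g₀ h₀)
    (hεσ : ε σ = (ℓ : O))
    (𝔭 : Ideal ↥(T O m (WithOps t hcomm))) [𝔭.IsPrime]
    (h𝔭 : 𝔭.comap (algebraMap O ↥(T O m (WithOps t hcomm))) = ⊥)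
    (hunr : ∀ τ ∈ A.inertiaSubgroupIn ℚ, (CH.rep hin τ).map (Ideal.Quotient.mk 𝔭) = 1) :
    P.ModularRepOfLevel M := by
  refine of_ops O t hcomm m r0 hr0 h hin 𝔭 h𝔭 P.p hpm idx
    (fun r => r.Prime ∧ W.IsGoodPrimeFor r ∧ ¬ r ∣ M * ℓ ∧ r ≠ P.p) (fun r => W.apOfModel r)
    (fun r hr => hcongm r hr.1 hr.2.1 hr.2.2.1 hr.2.2.2) σ ℓ hεσ
    (↑(A.inertiaSubgroupIn ℚ) : Set GQ) (fun τ hτ => hunr τ hτ) ?_
  intro R _ _ _ 𝔪 h𝔪 hp𝔪 j hj F hF hdet hfix θ heig hcong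
  exact Fermat.Agent.S43.Exit.MainAdd.modularRepOfLevel_of_lattice_add P hℓM hpℓ W hW hbad hA hσ
    O R 𝔪 h𝔪 hp𝔪 (Fin 2 → R) (Module.finrank_fin_fun R) (e.comp j) (he.comp hj) F
    (fun v => by
      show e (j (F v)) = _
      rw [hF, her]
      rfl)
    hdet
    (fun τ hτ v => by
      show rhoV P.p O (JZero (M * ℓ)) τ (e (j v)) = e (j v)
      rw [← her, hfix τ hτ v])
    θ
    (fun r hr hg hrN hrp v => by
      show opVHom P.p O (JZero (M * ℓ)) (heckeEnd (M * ℓ) (⟨r, hr⟩ : Nat.Primes)) (e (j v)) =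
        e (j (θ r • v))
      rw [← het r hr hg hrN hrp, heig r v])
    (fun r hr hg hrN hrp => hcong r ⟨hr, hg, hrN, hrp⟩)

end concrete

end Fermat.Agent.S43.Exit.OfPoint
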