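/-
PROJECT R (S43), THE EXIT N6 (helper1), THE ADAPTER AT THE CHIEF'S LEVEL-ZERO DATUM
(`Rho/Zero/Inst`): **`Exit/OfPoint.modularRepOfLevel_of_point_of_embedding` TYPED AGAINST
`JZ / tZ / rZ / datumZ / TZ`**, so that `Assembly/Stuck` calls ONE lemma.

`N = M ℓ` (`ℓ ∤ M` the stuck prime), `S₀` a finite set of primes containing no prime `r ∤ M ℓ p` good for
the integral model `W` (`S₀ := W.Δ.natAbs.primeFactors` or `S44.Ent.Phi.excSet W p (M ℓ)`), `𝔪` a maximal ideal of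
`MvPolynomial (JZ (M ℓ) p S₀) O` containing `p` and the `X j - a_j(W)` at the `W`-good `j`,
`hin₀ : CH.Input (rT datumZ) (tT datumZ) (dHom eps TZ) c g₀ h₀` (any `c g₀ h₀`), a prime `𝔭₀` of
`T0 = TZ (M ℓ) p S₀ O 𝔪` not containing a uniformiser (or: with `𝔭₀ ∩ O = ⊥`) at which
`CH.rep hin₀` is trivial on the inertia group at `A ∣ ℓ`.  Then `P.ModularRepOfLevel M`.

* `nonempty_JZ`, `idxZ`, `idxZ_of` : the index `ℕ → JZ N p S₀` (junk outside `JZ`);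
* `modularRepOfLevel_of_point_Z` : the adapter, `h𝔭 : 𝔭.comap (algebraMap O T0) = ⊥`;
* `modularRepOfLevel_of_point_Z'` : the same with `π ∉ 𝔭₀` (`π` dividing a power of every non-zero
  element: a uniformiser of a DVR), the conclusion of `RSide/StuckR.exists_prime_of_levels`;
* `modularRepOfLevel_of_point_Z_level` : the same at a level `N` with `hN : N = M * ℓ`.
-/
import Fermat.Agent.S43.Exit.OfPoint
import Fermat.Agent.S43.Rho.Zero.Inst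

set_option autoImplicit false
set_option linter.unusedSectionVars false
set_option linter.unusedVariables false
set_option linter.style.haveILetI false

noncomputable section

namespace Fermat.Agent.S43.Exit.OfPointZ

open Matrix IsLocalRing
open Fermat.Agent.S31.Core (Qbar GQ smallEnd)
open Fermat.Agent.S43.Rho
open Fermat.Agent.S43.Rho.Zero.Inst
open Fermat.Agent.S43.Rho.Feed.Inst (eps frob_eps)
open TensorProduct ModularCurve AlgebraicCurve FreyPackage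
open Fermat.Agent.S30.Padic.TateModule Fermat.Agent.S30.Padic.Assembly
open Fermat.Agent.S30.Arith.TateInputs
open Fermat.Agent.S43.Rho.Lam Fermat.Agent.S43.Rho.LamDatum Fermat.Agent.S43.Hecke.PolyModule

attribute [local instance] Glue.smulCommClassT Glue.algebraEnd

/-! ### the index -/

theorem nonempty_JZ (N : ℕ) [NeZero N] (p : ℕ) (S₀ : Finset ℕ) : Nonempty (JZ N p S₀) := by
  obtain ⟨r, hr, hrp⟩ := Nat.exists_infinite_primes (N + p + S₀.sup id + 1)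
  refine ⟨⟨⟨r, hrp⟩, ?_, ?_, ?_⟩⟩
  · refine (Nat.Prime.coprime_iff_not_dvd hrp).mpr fun hd => ?_
    have := Nat.le_of_dvd (Nat.pos_of_ne_zero (NeZero.ne N)) hd
    omega
  · show r ≠ p
    omega
  · intro hmem
    have h1 : id r ≤ S₀.sup id := Finset.le_sup (f := id) hmem
    have h2 : id r = r := rfl
    omega

/-- the index of the prime `r` (junk if `r` is not in `JZ N p S₀`) -/
def idxZ (N : ℕ) [NeZero N] (p : ℕ) (S₀ : Finset ℕ) (r : ℕ) : JZ N p S₀ :=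
  if h : r.Prime ∧ r.Coprime N ∧ r ≠ p ∧ r ∉ S₀ then ⟨⟨r, h.1⟩, h.2⟩
  else Classical.choice (nonempty_JZ N p S₀)

theorem idxZ_of (N : ℕ) [NeZero N] (p : ℕ) (S₀ : Finset ℕ) {r : ℕ}
    (h : r.Prime ∧ r.Coprime N ∧ r ≠ p ∧ r ∉ S₀) : idxZ N p S₀ r = ⟨⟨r, h.1⟩, h.2⟩ :=
  dif_pos h

/-! ### the adapter -/

/-- **THE ADAPTER AT THE LEVEL-ZERO DATUM OF `Rho/Zero/Inst`** -/
theorem modularRepOfLevel_of_point_Z (P : FreyPackage) [Fact P.p.Prime] {M ℓ : ℕ} [NeZero M]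
    [hℓ : Fact ℓ.Prime] [NeZero ℓ] [NeZero (M * ℓ)] (hℓM : ¬ ℓ ∣ M) (hpℓ : P.p ≠ ℓ)
    (W : WeierstrassCurve ℤ) (hW : W.IsIntegralModelOf P.freyCurve)
    (hbad : ¬ W.IsGoodPrimeFor ℓ)
    {A : ValuationSubring Qbar} (hA : A.LiesOverPrime ℓ) {σ : GQ} (hσ : A.IsFrobeniusAt σ ℓ)
    (S₀ : Finset ℕ)
    (hS₀ : ∀ r : ℕ, r.Prime → W.IsGoodPrimeFor r → ¬ r ∣ M * ℓ → r ≠ P.p → r ∉ S₀)
    (O : Type) [CommRing O] [IsDomain O] [CharZero O] [Algebra ℤ_[P.p] O]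
    [Module.IsTorsionFree ℤ_[P.p] O] [IsLocalRing O] [IsNoetherianRing O]
    [IsAdicComplete (maximalIdeal O) O]
    (𝔪 : Ideal (MvPolynomial (JZ (M * ℓ) P.p S₀) O)) [𝔪.IsMaximal]
    (hpO : (P.p : O) ∈ maximalIdeal O)
    (hpm : (MvPolynomial.C (P.p : O) : MvPolynomial (JZ (M * ℓ) P.p S₀) O) ∈ 𝔪)
    (hcongm : ∀ j : JZ (M * ℓ) P.p S₀, W.IsGoodPrimeFor (j.1 : ℕ) →
      (MvPolynomial.X j - MvPolynomial.C (((W.apOfModel (j.1 : ℕ) : ℤ) : O)) :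
        MvPolynomial (JZ (M * ℓ) P.p S₀) O) ∈ 𝔪)
    [Invertible (2 : ↥(TZ (M * ℓ) P.p S₀ O 𝔪))]
    {c g₀ h₀ : GQ}
    (hin : CH.Input (E := Module.End (TZ (M * ℓ) P.p S₀ O 𝔪) (LamZQ (M * ℓ) P.p S₀ O 𝔪))
      (Dens.rT (datumZ (M * ℓ) P.p S₀ O 𝔪 hpO)) (Dens.tT (datumZ (M * ℓ) P.p S₀ O 𝔪 hpO))
      (Glue.dHom (eps P.p O) (TZ (M * ℓ) P.p S₀ O 𝔪)) c g₀ h₀)
    (𝔭 : Ideal (TZ (M * ℓ) P.p S₀ O 𝔪)) [𝔭.IsPrime]
    (h𝔭 : 𝔭.comap (algebraMap O (TZ (M * ℓ) P.p S₀ O 𝔪)) = ⊥)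
    (hunr : ∀ τ ∈ A.inertiaSubgroupIn ℚ, (CH.rep hin τ).map (Ideal.Quotient.mk 𝔭) = 1) :
    P.ModularRepOfLevel M := by
  haveI := finite_LamZ (M * ℓ) P.p O
  haveI := free_LamZ (M * ℓ) P.p O
  haveI : Module.IsTorsionFree O (LamZ (M * ℓ) P.p O) := inferInstance
  haveI := isMulCommutative_TZ (M * ℓ) P.p S₀ O 𝔪
  have hgood : ∀ r : ℕ, r.Prime → W.IsGoodPrimeFor r → ¬ r ∣ M * ℓ → r ≠ P.p →
      r.Prime ∧ r.Coprime (M * ℓ) ∧ r ≠ P.p ∧ r ∉ S₀ := fun r hr hg hrN hrp =>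
    ⟨hr, (Nat.Prime.coprime_iff_not_dvd hr).mpr hrN, hrp, hS₀ r hr hg hrN hrp⟩
  exact Fermat.Agent.S43.Exit.OfPoint.modularRepOfLevel_of_point_of_embedding P hℓM hpℓ W hW hbad
    hA hσ O (Lam0 := LamZ (M * ℓ) P.p O) (t := tZ (M * ℓ) P.p S₀ O)
    (hcomm := hcommZ (M * ℓ) P.p S₀ O) (m := 𝔪) hpm (rZ (M * ℓ) P.p O) (rZcomm (M * ℓ) P.p S₀ O)
    (AddMonoidHom.id _) (fun _ _ h => h) (fun _ _ => rfl) (idxZ (M * ℓ) P.p S₀)
    (fun r hr hg hrN hrp x => by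
      rw [idxZ_of (M * ℓ) P.p S₀ (hgood r hr hg hrN hrp)]
      rfl)
    (fun r hr hg hrN hrp => by
      have h1 := hcongm (idxZ (M * ℓ) P.p S₀ r)
      rw [idxZ_of (M * ℓ) P.p S₀ (hgood r hr hg hrN hrp)] at h1 ⊢
      exact h1 hg)
    (eps P.p O) (SgZ (M * ℓ) P.p S₀) (maximalIdeal O) (datumZ (M * ℓ) P.p S₀ O 𝔪 hpO) hin
    (frob_eps P.p O hℓ.out (Ne.symm hpℓ) A hA σ hσ) 𝔭 h𝔭 hunr

/-! ### the uniformiser form -/

/-- in a noetherian local domain with principal maximal ideal `(π)`, every non-zero element divides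
a power of `π` -/
theorem exists_dvd_pow_of_maximalIdeal_eq_span {O : Type*} [CommRing O] [IsDomain O]
    [IsLocalRing O] [IsNoetherianRing O] (π : O) (hπO : maximalIdeal O = Ideal.span {π})
    (c : O) (hc : c ≠ 0) : ∃ n : ℕ, c ∣ π ^ n := by
  classical
  have hK : ⨅ i : ℕ, maximalIdeal O ^ i = ⊥ :=
    Ideal.iInf_pow_eq_bot_of_isLocalRing (maximalIdeal O) (Ideal.IsPrime.ne_top inferInstance)
  have hex : ∃ n : ℕ, c ∉ maximalIdeal O ^ n := by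
    by_contra hcon
    have hcon' : ∀ n : ℕ, c ∈ maximalIdeal O ^ n := fun n => by
      by_contra hn
      exact hcon ⟨n, hn⟩
    have : c ∈ ⨅ i : ℕ, maximalIdeal O ^ i := (Ideal.mem_iInf).mpr hcon'
    rw [hK, Ideal.mem_bot] at this
    exact hc this
  have hn := Nat.find_spec hex
  have hmin := fun k (hk : k < Nat.find hex) => Nat.find_min hex hk
  have hpos : Nat.find hex ≠ 0 := by
    intro h0
    rw [h0, pow_zero, Ideal.one_eq_top] at hn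
    exact hn Submodule.mem_top
  obtain ⟨k, hk⟩ := Nat.exists_eq_succ_of_ne_zero hpos
  have hck : c ∈ maximalIdeal O ^ k := by
    have := hmin k (by omega)
    exact not_not.mp this
  rw [hπO, Ideal.span_singleton_pow, Ideal.mem_span_singleton] at hck
  obtain ⟨u, hu⟩ := hck
  have huU : IsUnit u := by
    by_contra hnu
    have hum : u ∈ maximalIdeal O := (mem_maximalIdeal u).mpr hnu
    apply hn
    rw [hk, pow_succ, hu]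
    exact Ideal.mul_mem_mul (by rw [hπO, Ideal.span_singleton_pow]; exact
      Ideal.mem_span_singleton_self _) hum
  obtain ⟨v, hv⟩ := huU.exists_right_inv
  exact ⟨k, v, by rw [hu, mul_assoc, hv, mul_one]⟩

/-- **THE ADAPTER, UNIFORMISER FORM**: `𝔭₀` a prime of `T0` not containing `π` (the conclusion of
`RSide/StuckR.exists_prime_of_levels`) -/
theorem modularRepOfLevel_of_point_Z' (P : FreyPackage) [Fact P.p.Prime] {M ℓ : ℕ} [NeZero M]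
    [hℓ : Fact ℓ.Prime] [NeZero ℓ] [NeZero (M * ℓ)] (hℓM : ¬ ℓ ∣ M) (hpℓ : P.p ≠ ℓ)
    (W : WeierstrassCurve ℤ) (hW : W.IsIntegralModelOf P.freyCurve)
    (hbad : ¬ W.IsGoodPrimeFor ℓ)
    {A : ValuationSubring Qbar} (hA : A.LiesOverPrime ℓ) {σ : GQ} (hσ : A.IsFrobeniusAt σ ℓ)
    (S₀ : Finset ℕ)
    (hS₀ : ∀ r : ℕ, r.Prime → W.IsGoodPrimeFor r → ¬ r ∣ M * ℓ → r ≠ P.p → r ∉ S₀)
    (O : Type) [CommRing O] [IsDomain O] [CharZero O] [Algebra ℤ_[P.p] O]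
    [Module.IsTorsionFree ℤ_[P.p] O] [IsLocalRing O] [IsNoetherianRing O]
    [IsAdicComplete (maximalIdeal O) O]
    (π : O) (hπO : maximalIdeal O = Ideal.span {π})
    (𝔪 : Ideal (MvPolynomial (JZ (M * ℓ) P.p S₀) O)) [𝔪.IsMaximal]
    (hpO : (P.p : O) ∈ maximalIdeal O)
    (hpm : (MvPolynomial.C (P.p : O) : MvPolynomial (JZ (M * ℓ) P.p S₀) O) ∈ 𝔪)
    (hcongm : ∀ j : JZ (M * ℓ) P.p S₀, W.IsGoodPrimeFor (j.1 : ℕ) →
      (MvPolynomial.X j - MvPolynomial.C (((W.apOfModel (j.1 : ℕ) : ℤ) : O)) :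
        MvPolynomial (JZ (M * ℓ) P.p S₀) O) ∈ 𝔪)
    [Invertible (2 : ↥(TZ (M * ℓ) P.p S₀ O 𝔪))]
    {c g₀ h₀ : GQ}
    (hin : CH.Input (E := Module.End (TZ (M * ℓ) P.p S₀ O 𝔪) (LamZQ (M * ℓ) P.p S₀ O 𝔪))
      (Dens.rT (datumZ (M * ℓ) P.p S₀ O 𝔪 hpO)) (Dens.tT (datumZ (M * ℓ) P.p S₀ O 𝔪 hpO))
      (Glue.dHom (eps P.p O) (TZ (M * ℓ) P.p S₀ O 𝔪)) c g₀ h₀)
    (𝔭 : Ideal (TZ (M * ℓ) P.p S₀ O 𝔪)) [𝔭.IsPrime]
    (h𝔭 : algebraMap O (TZ (M * ℓ) P.p S₀ O 𝔪) π ∉ 𝔭)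
    (hunr : ∀ τ ∈ A.inertiaSubgroupIn ℚ, (CH.rep hin τ).map (Ideal.Quotient.mk 𝔭) = 1) :
    P.ModularRepOfLevel M :=
  modularRepOfLevel_of_point_Z P hℓM hpℓ W hW hbad hA hσ S₀ hS₀ O 𝔪 hpO hpm hcongm hin 𝔭
    (Fermat.Agent.S43.Exit.Assoc.comap_eq_bot_of_notMem π
      (exists_dvd_pow_of_maximalIdeal_eq_span π hπO) 𝔭 h𝔭) hunr

/-- **THE ADAPTER AT A LEVEL `N = M ℓ`** (uniformiser form) -/
theorem modularRepOfLevel_of_point_Z_level (P : FreyPackage) [Fact P.p.Prime] {N M ℓ : ℕ}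
    [NeZero N] (hN : N = M * ℓ) [hℓ : Fact ℓ.Prime] (hℓM : ¬ ℓ ∣ M) (hpℓ : P.p ≠ ℓ)
    (W : WeierstrassCurve ℤ) (hW : W.IsIntegralModelOf P.freyCurve)
    (hbad : ¬ W.IsGoodPrimeFor ℓ)
    {A : ValuationSubring Qbar} (hA : A.LiesOverPrime ℓ) {σ : GQ} (hσ : A.IsFrobeniusAt σ ℓ)
    (S₀ : Finset ℕ)
    (hS₀ : ∀ r : ℕ, r.Prime → W.IsGoodPrimeFor r → ¬ r ∣ N → r ≠ P.p → r ∉ S₀)
    (O : Type) [CommRing O] [IsDomain O] [CharZero O] [Algebra ℤ_[P.p] O]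
    [Module.IsTorsionFree ℤ_[P.p] O] [IsLocalRing O] [IsNoetherianRing O]
    [IsAdicComplete (maximalIdeal O) O]
    (π : O) (hπO : maximalIdeal O = Ideal.span {π})
    (𝔪 : Ideal (MvPolynomial (JZ N P.p S₀) O)) [𝔪.IsMaximal]
    (hpO : (P.p : O) ∈ maximalIdeal O)
    (hpm : (MvPolynomial.C (P.p : O) : MvPolynomial (JZ N P.p S₀) O) ∈ 𝔪)
    (hcongm : ∀ j : JZ N P.p S₀, W.IsGoodPrimeFor (j.1 : ℕ) →
      (MvPolynomial.X j - MvPolynomial.C (((W.apOfModel (j.1 : ℕ) : ℤ) : O)) :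
        MvPolynomial (JZ N P.p S₀) O) ∈ 𝔪)
    [Invertible (2 : ↥(TZ N P.p S₀ O 𝔪))]
    {c g₀ h₀ : GQ}
    (hin : CH.Input (E := Module.End (TZ N P.p S₀ O 𝔪) (LamZQ N P.p S₀ O 𝔪))
      (Dens.rT (datumZ N P.p S₀ O 𝔪 hpO)) (Dens.tT (datumZ N P.p S₀ O 𝔪 hpO))
      (Glue.dHom (eps P.p O) (TZ N P.p S₀ O 𝔪)) c g₀ h₀)
    (𝔭 : Ideal (TZ N P.p S₀ O 𝔪)) [𝔭.IsPrime]
    (h𝔭 : algebraMap O (TZ N P.p S₀ O 𝔪) π ∉ 𝔭)
    (hunr : ∀ τ ∈ A.inertiaSubgroupIn ℚ, (CH.rep hin τ).map (Ideal.Quotient.mk 𝔭) = 1) :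
    P.ModularRepOfLevel M := by
  subst hN
  haveI : NeZero M := ⟨fun h0 => NeZero.ne (M * ℓ) (by rw [h0, zero_mul])⟩
  haveI : NeZero ℓ := ⟨hℓ.out.ne_zero⟩
  exact modularRepOfLevel_of_point_Z' P hℓM hpℓ W hW hbad hA hσ S₀ hS₀ O π hπO 𝔪 hpO hpm hcongm
    hin 𝔭 h𝔭 hunr

end Fermat.Agent.S43.Exit.OfPointZ
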