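/-
PROJECT R (S43), THE EXIT N6 (helper1), THE `W / θ / S₀` HALF OF `Assembly/Stuck` (chief #6627 (2)):
**THE SYSTEM OF EIGENVALUES OF AN INTEGRAL MODEL `W` OF THE FREY CURVE, AND THE EXIT IN ONE CALL.**

`W` an integral model of the Frey curve (the `W` of `P.ModularRepOfLevel N`), `S₀` a finite set of
primes, `JZ N p S₀` the index set of `Rho/Zero/Inst`, `O` a local ring.

* `thetaW W N p S₀ O : JZ N p S₀ → ResidueField O`, `j ↦ a_j(W) mod 𝔪_O` (an `abbrev`: it IS the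
  literal `fun j => residue O ((W.apOfModel j.1 : ℤ) : O)` of `Hecke/Entry.entry` and of
  `Rho/Zero/BridgeEntry.nontrivial_LamZQ_of_entry`); `thetaW_eq`;
* `isGoodPrimeFor_of_JZ` : for `excSet W p N ⊆ S₀` every `j : JZ N p S₀` is good for `W`;
  `notMem_excSet_of_good` : the `hS₀` of `Exit/OfPointZ` at `S₀ := excSet W p N`;
* `charpoly_frob`, `charpoly_frob_ev` : `charpoly (rbar Frob_j) = X² - θ_j X + j` from RB's export
  `IsFreyResidual.hfrob` (the `hθ` of `Assembly/LevelHecke`, the `hfrob` of `Rho/Zero/Main`);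
* `C_mem_maxId`, `C_natCast_mem_maxId`, `X_sub_C_mem_maxId` : the `hpm`, `hcongm` of `Exit/OfPointZ`;
* `disc_ne_zero`, `not_isGoodPrimeFor_of_dvd` (`hbad`), `level_arith` (`N = N / ℓ * ℓ`, `ℓ ∤ N / ℓ`);
* **`modularRepOfLevel_div`** : THE EXIT OF `Assembly/Stuck`: from the conductor level `N`, an odd
  prime `ℓ ∣ N`, `ℓ ≠ p`, the level-zero `hin₀` at `𝔪 := maxId (thetaW ..)` and a prime `𝔭₀` of
  `T0 = TZ N p S₀ O 𝔪` with `π ∉ 𝔭₀` at which `CH.rep hin₀` is trivial on the inertia group at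
  `A ∣ ℓ` : `P.ModularRepOfLevel (N / ℓ)`.
-/
import Fermat.Agent.S43.Exit.OfPointZ
import Fermat.Agent.S43.Hecke.Loc
import Fermat.Agent.S43.Rbar.Seam
import Fermat.Agent.S43.T1.Bad
import Fermat.Agent.S41.NonEis.Main
import Fermat.Agent.S44.Ent.Phi
import Fermat.Prelude.Def_FreyPackage_IsConductorLevel

set_option autoImplicit false
set_option linter.unusedSectionVars false
set_option linter.unusedVariables false
set_option linter.style.haveILetI false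

noncomputable section

namespace Fermat.Agent.S43.Exit.FreyTheta

open IsLocalRing Polynomial
open Fermat.Agent.S31.Core (Qbar GQ)
open Fermat.Agent.S43.Rho
open Fermat.Agent.S43.Rho.Zero.Inst
open Fermat.Agent.S43.Rho.Feed.Inst (eps)
open Fermat.Agent.S43.Hecke.Loc (evalHom maxId evalHom_X evalHom_C)
open Fermat.Agent.S43.Rbar.Seam (IsFreyResidual)
open Fermat.Agent.S44.Ent.Phi (excSet not_mem_excSet of_not_mem_excSet)
open FreyPackage

attribute [local instance] Glue.smulCommClassT Glue.algebraEnd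

/-! ### the system of eigenvalues -/

section theta

variable (W : WeierstrassCurve ℤ) (N : ℕ) [NeZero N] (p : ℕ) (S₀ : Finset ℕ)
  (O : Type) [CommRing O] [IsLocalRing O]

/-- **the system of eigenvalues of `W`**: `j ↦ a_j(W) mod 𝔪_O` -/
abbrev thetaW : JZ N p S₀ → ResidueField O :=
  fun j => residue O (((W.apOfModel (j.1 : ℕ) : ℤ) : O))

theorem thetaW_eq (j : JZ N p S₀) :
    thetaW W N p S₀ O j = ((W.apOfModel (j.1 : ℕ) : ℤ) : ResidueField O) :=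
  map_intCast (residue O) _

/-- for `S₀ ⊇ excSet W p N` every index is a good prime of `W` -/
theorem isGoodPrimeFor_of_JZ (hΔ : W.Δ ≠ 0) (hS : excSet W p N ⊆ S₀) (j : JZ N p S₀) :
    W.IsGoodPrimeFor (j.1 : ℕ) :=
  (of_not_mem_excSet hΔ (NeZero.ne N) j.1.2 (fun h => j.2.2.2 (hS h))).1

/-- the `hS₀` of `Exit/OfPointZ` at `S₀ := excSet W p N` -/
theorem notMem_excSet_of_good (r : ℕ) (hr : r.Prime) (hg : W.IsGoodPrimeFor r) (hrN : ¬ r ∣ N)
    (hrp : r ≠ p) : r ∉ excSet W p N :=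
  not_mem_excSet hg hrN hrp

/-- the `hS₀` of `Exit/OfPointZ` at `S₀ := W.Δ.natAbs.primeFactors` -/
theorem notMem_primeFactors_of_good (r : ℕ) (hr : r.Prime) (hg : W.IsGoodPrimeFor r)
    (hrN : ¬ r ∣ N) (hrp : r ≠ p) : r ∉ W.Δ.natAbs.primeFactors := fun h =>
  hg (Int.natCast_dvd.mpr (Nat.dvd_of_mem_primeFactors h))

/-! ### the maximal ideal -/

theorem C_mem_maxId {J : Type*} (θ : J → ResidueField O) {a : O} (ha : a ∈ maximalIdeal O) :
    (MvPolynomial.C a : MvPolynomial J O) ∈ maxId θ := by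
  show evalHom θ (MvPolynomial.C a) = 0
  rw [evalHom_C]
  exact (residue_eq_zero_iff a).mpr ha

/-- **`hpm`** -/
theorem C_natCast_mem_maxId {J : Type*} (θ : J → ResidueField O)
    (hpO : (p : O) ∈ maximalIdeal O) :
    (MvPolynomial.C (p : O) : MvPolynomial J O) ∈ maxId θ :=
  C_mem_maxId O θ hpO

/-- **`hcongm`** -/
theorem X_sub_C_mem_maxId (j : JZ N p S₀) :
    (MvPolynomial.X j - MvPolynomial.C (((W.apOfModel (j.1 : ℕ) : ℤ) : O)) :
      MvPolynomial (JZ N p S₀) O) ∈ maxId (thetaW W N p S₀ O) := by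
  show evalHom (thetaW W N p S₀ O) _ = 0
  rw [map_sub, evalHom_X, evalHom_C, sub_self]

end theta

/-! ### the Frey curve -/

section frey

variable (P : FreyPackage)

/-- the discriminant of an integral model of the Frey curve is not zero -/
theorem disc_ne_zero {W : WeierstrassCurve ℤ} (hW : W.IsIntegralModelOf P.freyCurve) : W.Δ ≠ 0 :=
  haveI : P.freyCurve.IsElliptic :=
    ⟨isUnit_iff_ne_zero.mpr (Fermat.Agent.S13.CU.FreyInputs.frey_Δ_ne_zero P)⟩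
  Fermat.Agent.S41.NonEis.Main.disc_ne_zero P.freyCurve hW

/-- **`hbad`**: an integral model of the Frey curve is bad at every odd prime of a conductor level -/
theorem not_isGoodPrimeFor_of_dvd {N : ℕ} (hcond : P.IsConductorLevel N) {W : WeierstrassCurve ℤ}
    (hW : W.IsIntegralModelOf P.freyCurve) {ℓ : ℕ} (hℓ : ℓ.Prime) (hℓ2 : ℓ ≠ 2) (hℓN : ℓ ∣ N) :
    ¬ W.IsGoodPrimeFor ℓ :=
  Fermat.Agent.S43.T1.Bad.not_isGoodPrimeFor P W hW ℓ hℓ hℓ2 (hcond.support ℓ hℓ hℓN)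

/-- the arithmetic of a prime of a conductor level -/
theorem level_arith {N : ℕ} (hcond : P.IsConductorLevel N) {ℓ : ℕ} (hℓ : ℓ.Prime) (hℓN : ℓ ∣ N) :
    N = N / ℓ * ℓ ∧ ¬ ℓ ∣ N / ℓ := by
  refine ⟨(Nat.div_mul_cancel hℓN).symm, ?_⟩
  rintro ⟨c, hc⟩
  apply hcond.sq_not_dvd hℓ
  refine ⟨c, ?_⟩
  rw [← Nat.div_mul_cancel hℓN, hc]
  ring

variable [Fact P.p.Prime] (N : ℕ) [NeZero N] (S₀ : Finset ℕ)
  (O : Type) [CommRing O] [IsLocalRing O]

/-- **`hθ`**: the characteristic polynomial of `rbar (Frob_j)` -/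
theorem charpoly_frob {rbar : ResidualGaloisRep (ResidueField O)} (hF : IsFreyResidual P rbar)
    {W : WeierstrassCurve ℤ} (hW : W.IsIntegralModelOf P.freyCurve)
    (hS : excSet W P.p N ⊆ S₀) (j : JZ N P.p S₀) (A : ValuationSubring Qbar)
    (hA : A.LiesOverPrime (j.1 : ℕ)) (τ : GQ) (hτ : A.IsFrobeniusAt τ (j.1 : ℕ)) :
    LinearMap.charpoly (rbar.ρ τ) =
      X ^ 2 - C (thetaW W N P.p S₀ O j) * X + C (((j.1 : ℕ) : ℕ) : ResidueField O) := by
  rw [thetaW_eq]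
  exact hF.hfrob W hW (j.1 : ℕ) j.1.2
    (isGoodPrimeFor_of_JZ W N P.p S₀ (disc_ne_zero P hW) hS j) j.2.2.1 A hA τ hτ

/-- **`hfrob` of `Rho/Zero/Main`**: the same with `ev (X j)`, `ev = evalHom θ` -/
theorem charpoly_frob_ev {rbar : ResidualGaloisRep (ResidueField O)} (hF : IsFreyResidual P rbar)
    {W : WeierstrassCurve ℤ} (hW : W.IsIntegralModelOf P.freyCurve)
    (hS : excSet W P.p N ⊆ S₀) (j : JZ N P.p S₀) (A : ValuationSubring Qbar)
    (hA : A.LiesOverPrime (j.1 : ℕ)) (τ : GQ) (hτ : A.IsFrobeniusAt τ (j.1 : ℕ)) :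
    LinearMap.charpoly (rbar.ρ τ) =
      X ^ 2 - C (evalHom (thetaW W N P.p S₀ O) (MvPolynomial.X j)) * X +
        C (((j.1 : ℕ) : ℕ) : ResidueField O) := by
  rw [evalHom_X]
  exact charpoly_frob P N S₀ O hF hW hS j A hA τ hτ

end frey

/-! ### the exit of `Assembly/Stuck` -/

/-- **THE EXIT OF `Assembly/Stuck`** -/
theorem modularRepOfLevel_div (P : FreyPackage) [Fact P.p.Prime] {N ℓ : ℕ} [NeZero N]
    (hcond : P.IsConductorLevel N) [hℓ : Fact ℓ.Prime] (hℓ2 : ℓ ≠ 2) (hpℓ : P.p ≠ ℓ) (hℓN : ℓ ∣ N)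
    (W : WeierstrassCurve ℤ) (hW : W.IsIntegralModelOf P.freyCurve)
    {A : ValuationSubring Qbar} (hA : A.LiesOverPrime ℓ) {σ : GQ} (hσ : A.IsFrobeniusAt σ ℓ)
    (S₀ : Finset ℕ)
    (hS₀ : ∀ r : ℕ, r.Prime → W.IsGoodPrimeFor r → ¬ r ∣ N → r ≠ P.p → r ∉ S₀)
    (O : Type) [CommRing O] [IsDomain O] [CharZero O] [Algebra ℤ_[P.p] O]
    [Module.IsTorsionFree ℤ_[P.p] O] [IsLocalRing O] [IsNoetherianRing O]
    [IsAdicComplete (maximalIdeal O) O]
    (π : O) (hπO : maximalIdeal O = Ideal.span {π})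
    (hpO : (P.p : O) ∈ maximalIdeal O)
    [Invertible (2 : ↥(TZ N P.p S₀ O (maxId (thetaW W N P.p S₀ O))))]
    {c g₀ h₀ : GQ}
    (hin : CH.Input
      (E := Module.End (TZ N P.p S₀ O (maxId (thetaW W N P.p S₀ O)))
        (LamZQ N P.p S₀ O (maxId (thetaW W N P.p S₀ O))))
      (Dens.rT (datumZ N P.p S₀ O (maxId (thetaW W N P.p S₀ O)) hpO))
      (Dens.tT (datumZ N P.p S₀ O (maxId (thetaW W N P.p S₀ O)) hpO))
      (Glue.dHom (eps P.p O) (TZ N P.p S₀ O (maxId (thetaW W N P.p S₀ O)))) c g₀ h₀)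
    (𝔭 : Ideal (TZ N P.p S₀ O (maxId (thetaW W N P.p S₀ O)))) [𝔭.IsPrime]
    (h𝔭 : algebraMap O (TZ N P.p S₀ O (maxId (thetaW W N P.p S₀ O))) π ∉ 𝔭)
    (hunr : ∀ τ ∈ A.inertiaSubgroupIn ℚ, (CH.rep hin τ).map (Ideal.Quotient.mk 𝔭) = 1) :
    P.ModularRepOfLevel (N / ℓ) := by
  obtain ⟨hN, hℓM⟩ := level_arith P hcond hℓ.out hℓN
  exact Fermat.Agent.S43.Exit.OfPointZ.modularRepOfLevel_of_point_Z_level P hN hℓM hpℓ W hW
    (not_isGoodPrimeFor_of_dvd P hcond hW hℓ.out hℓ2 hℓN) hA hσ S₀ hS₀ O π hπO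
    (maxId (thetaW W N P.p S₀ O)) hpO (C_natCast_mem_maxId P.p O _ hpO)
    (fun j _ => X_sub_C_mem_maxId W N P.p S₀ O j) hin 𝔭 h𝔭 hunr

end Fermat.Agent.S43.Exit.FreyTheta
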