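/-
PROJECT R (S43), THE EXIT N6 (helper1), the `W / θ / S₀` half of `Assembly/Stuck`, file 2:
**THE NON-EISENSTEIN INDEX `j₀ : JZ N p S₀`** in the literal of `Rho/Zero/BridgeEntry`
(`nontrivial_LamZQ_of_entry`, `free_M0`, `exists_equivO`) and of `Rho/Zero/Bridge`:
`(j₀ : ZMod N) = 1` and `θ_W j₀ ≠ 1 + j₀` in the residue field, from RB's
`Rbar/NonEis.exists_nonEisenstein_prime_frey`.
-/
import Fermat.Agent.S43.Exit.FreyTheta
import Fermat.Agent.S43.Rbar.NonEis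

set_option autoImplicit false
set_option linter.unusedSectionVars false
set_option linter.unusedVariables false

noncomputable section

namespace Fermat.Agent.S43.Exit.FreyNonEis

open IsLocalRing
open Fermat.Agent.S43.Rho.Zero.Inst
open Fermat.Agent.S43.Rbar.Seam (IsFreyResidual)
open Fermat.Agent.S43.Exit.FreyTheta
open FreyPackage

/-- **the non-Eisenstein index**: a prime `j₀ ∤ N p`, `j₀ ∉ S₀`, good for `W`, `j₀ ≡ 1 mod N`, with
`a_{j₀}(W) ≢ 1 + j₀` modulo the maximal ideal of `O` -/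
theorem exists_j0 (P : FreyPackage) (N : ℕ) [NeZero N] (S₀ : Finset ℕ)
    (O : Type) [CommRing O] [IsLocalRing O]
    {rbar : ResidualGaloisRep (ResidueField O)} (hF : IsFreyResidual P rbar)
    (W : WeierstrassCurve ℤ) (hW : W.IsIntegralModelOf P.freyCurve) :
    ∃ j₀ : JZ N P.p S₀, W.IsGoodPrimeFor (j₀.1 : ℕ) ∧ (((j₀.1 : ℕ) : ℕ) : ZMod N) = 1 ∧
      residue O (((W.apOfModel (j₀.1 : ℕ) : ℤ) : O)) ≠ residue O ((1 + (j₀.1 : ℕ) : ℕ) : O) := by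
  obtain ⟨ℓ, hℓ, hℓS, hℓp, hgood, hℓN, hne⟩ :=
    Fermat.Agent.S43.Rbar.NonEis.exists_nonEisenstein_prime_frey rbar P hF W hW
      (disc_ne_zero P hW) N (S₀ ∪ N.primeFactors)
  have hS₀ : ℓ ∉ S₀ := fun h => hℓS (Finset.mem_union_left _ h)
  have hN : ¬ ℓ ∣ N := fun h =>
    hℓS (Finset.mem_union_right _ (Nat.mem_primeFactors.mpr ⟨hℓ, h, NeZero.ne N⟩))
  refine ⟨⟨⟨ℓ, hℓ⟩, (Nat.Prime.coprime_iff_not_dvd hℓ).mpr hN, hℓp, hS₀⟩, hgood, hℓN, ?_⟩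
  rw [map_intCast, map_natCast, Nat.cast_add, Nat.cast_one]
  exact hne

/-- the same in terms of `thetaW` -/
theorem exists_j0_theta (P : FreyPackage) (N : ℕ) [NeZero N] (S₀ : Finset ℕ)
    (O : Type) [CommRing O] [IsLocalRing O]
    {rbar : ResidualGaloisRep (ResidueField O)} (hF : IsFreyResidual P rbar)
    (W : WeierstrassCurve ℤ) (hW : W.IsIntegralModelOf P.freyCurve) :
    ∃ j₀ : JZ N P.p S₀, W.IsGoodPrimeFor (j₀.1 : ℕ) ∧ (((j₀.1 : ℕ) : ℕ) : ZMod N) = 1 ∧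
      thetaW W N P.p S₀ O j₀ ≠ residue O ((1 + (j₀.1 : ℕ) : ℕ) : O) :=
  exists_j0 P N S₀ O hF W hW

end Fermat.Agent.S43.Exit.FreyNonEis
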