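/-
PROJECT R (S43), THE EXIT N6 (helper1), the `W / θ / S₀` half of `Assembly/Stuck`, file 3:
**LEVEL ZERO FROM `P.ModularRepOfLevel N` IN ONE CALL**: the integral model `W`, the exceptional set
`S₀ := excSet W p N`, the system of eigenvalues `θ := thetaW W N p S₀ O`, the non-Eisenstein index
`j₀`, `LamZQ ≠ 0`, and the level-zero Hecke module `M0` finite free of positive rank (the `hd` of
`Assembly/Level`), from the chief's `Hecke/Entry.entry` and helper6's `Rho/Zero/BridgeEntry`.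
-/
import Fermat.Agent.S43.Exit.FreyNonEis
import Fermat.Agent.S43.Rho.Zero.BridgeEntry

set_option autoImplicit false
set_option linter.unusedSectionVars false
set_option linter.unusedVariables false
set_option linter.style.haveILetI false

noncomputable section

namespace Fermat.Agent.S43.Exit.FreyZero

open IsLocalRing
open Fermat.Agent.S43.Rho.Zero.Inst
open Fermat.Agent.S43.Rbar.Seam (IsFreyResidual)
open Fermat.Agent.S43.Hecke.Loc (maxId)
open Fermat.Agent.S43.Hecke.Main (M0)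
open Fermat.Agent.S44.Ent.Phi (excSet)
open Fermat.Agent.S43.Exit.FreyTheta Fermat.Agent.S43.Exit.FreyNonEis
open FreyPackage

/-- **level zero from an eigenform congruent to `W`**, `S₀ ⊇ excSet W p N` -/
theorem levelZero_of_eigenform (P : FreyPackage) [Fact P.p.Prime] (N : ℕ) [NeZero N]
    (S₀ : Finset ℕ)
    (O : Type) [CommRing O] [IsLocalRing O] [IsDomain O] [CharZero O] [Algebra ℤ_[P.p] O]
    [IsLocalHom (algebraMap ℤ_[P.p] O)] [IsNoetherianRing O] [IsAdicComplete (maximalIdeal O) O]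
    {rbar : ResidualGaloisRep (ResidueField O)} (hF : IsFreyResidual P rbar)
    {W : WeierstrassCurve ℤ} (hW : W.IsIntegralModelOf P.freyCurve)
    (hS : excSet W P.p N ⊆ S₀)
    {f : CuspForm (CongruenceSubgroup.Gamma0 N) 2} (hf : f.IsNormalizedEigenform)
    {𝔫 : Ideal (integralClosure ℤ ℂ)} (h𝔫 : 𝔫 ≠ ⊤) (hp𝔫 : (P.p : integralClosure ℤ ℂ) ∈ 𝔫)
    (hcong : ∀ ℓ : ℕ, ℓ.Prime → W.IsGoodPrimeFor ℓ → ¬ ℓ ∣ N → ℓ ≠ P.p →
      ∃ a : integralClosure ℤ ℂ, (a : ℂ) = ModularFormClass.qCoeff f ℓ ∧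
        a - ((W.apOfModel ℓ : ℤ) : integralClosure ℤ ℂ) ∈ 𝔫) :
    ∃ j₀ : JZ N P.p S₀, (((j₀.1 : ℕ) : ℕ) : ZMod N) = 1 ∧
      thetaW W N P.p S₀ O j₀ ≠ residue O ((1 + (j₀.1 : ℕ) : ℕ) : O) ∧
      Nontrivial (LamZQ N P.p S₀ O (maxId (thetaW W N P.p S₀ O))) ∧
      Nontrivial (M0 O (fun j : JZ N P.p S₀ => (j.1 : ℕ)) (fun j => j.1.2) N
        (thetaW W N P.p S₀ O)) ∧
      Module.Free O (M0 O (fun j : JZ N P.p S₀ => (j.1 : ℕ)) (fun j => j.1.2) N
        (thetaW W N P.p S₀ O)) ∧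
      Module.Finite O (M0 O (fun j : JZ N P.p S₀ => (j.1 : ℕ)) (fun j => j.1.2) N
        (thetaW W N P.p S₀ O)) ∧
      0 < Module.finrank O (M0 O (fun j : JZ N P.p S₀ => (j.1 : ℕ)) (fun j => j.1.2) N
        (thetaW W N P.p S₀ O)) := by
  obtain ⟨j₀, -, h1, hne⟩ := exists_j0 P N S₀ O hF W hW
  have hL := Fermat.Agent.S43.Rho.Zero.BridgeEntry.nontrivial_LamZQ_of_entry N P.p S₀ O
    (disc_ne_zero P hW) hf h𝔫 hp𝔫 hcong hS j₀ h1 hne
  have hM := Fermat.Agent.S43.Rho.Zero.BridgeEntry.nontrivial_M0 N P.p S₀ O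
    (thetaW W N P.p S₀ O) j₀ h1 hne hL
  have hfree := Fermat.Agent.S43.Rho.Zero.BridgeEntry.free_M0 N P.p S₀ O
    (thetaW W N P.p S₀ O) j₀ h1 hne
  obtain ⟨e, -⟩ := Fermat.Agent.S43.Rho.Zero.BridgeEntry.exists_equivO N P.p S₀ O
    (thetaW W N P.p S₀ O) j₀ h1 hne
  have hfinL := finite_LamZQ N P.p S₀ O (maxId (thetaW W N P.p S₀ O))
  have hfin : Module.Finite O (M0 O (fun j : JZ N P.p S₀ => (j.1 : ℕ)) (fun j => j.1.2) N
      (thetaW W N P.p S₀ O)) := Module.Finite.equiv e.symm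
  exact ⟨j₀, h1, hne, hL, hM, hfree, hfin, (Module.finrank_pos_iff_of_free O _).mpr hM⟩

/-- **LEVEL ZERO FROM `P.ModularRepOfLevel N`**, at `S₀ := excSet W p N` -/
theorem levelZero_of_modular (P : FreyPackage) [Fact P.p.Prime] (N : ℕ) [NeZero N]
    (O : Type) [CommRing O] [IsLocalRing O] [IsDomain O] [CharZero O] [Algebra ℤ_[P.p] O]
    [IsLocalHom (algebraMap ℤ_[P.p] O)] [IsNoetherianRing O] [IsAdicComplete (maximalIdeal O) O]
    {rbar : ResidualGaloisRep (ResidueField O)} (hF : IsFreyResidual P rbar)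
    (hmod : P.ModularRepOfLevel N) :
    ∃ (W : WeierstrassCurve ℤ) (_ : W.IsIntegralModelOf P.freyCurve)
      (j₀ : JZ N P.p (excSet W P.p N)), (((j₀.1 : ℕ) : ℕ) : ZMod N) = 1 ∧
      thetaW W N P.p (excSet W P.p N) O j₀ ≠ residue O ((1 + (j₀.1 : ℕ) : ℕ) : O) ∧
      Nontrivial (LamZQ N P.p (excSet W P.p N) O (maxId (thetaW W N P.p (excSet W P.p N) O))) ∧
      Nontrivial (M0 O (fun j : JZ N P.p (excSet W P.p N) => (j.1 : ℕ)) (fun j => j.1.2) N
        (thetaW W N P.p (excSet W P.p N) O)) ∧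
      Module.Free O (M0 O (fun j : JZ N P.p (excSet W P.p N) => (j.1 : ℕ)) (fun j => j.1.2) N
        (thetaW W N P.p (excSet W P.p N) O)) ∧
      Module.Finite O (M0 O (fun j : JZ N P.p (excSet W P.p N) => (j.1 : ℕ)) (fun j => j.1.2) N
        (thetaW W N P.p (excSet W P.p N) O)) ∧
      0 < Module.finrank O (M0 O (fun j : JZ N P.p (excSet W P.p N) => (j.1 : ℕ))
        (fun j => j.1.2) N (thetaW W N P.p (excSet W P.p N) O)) := by
  obtain ⟨f, W, 𝔫, hf, hW, h𝔫, hp𝔫, hcong⟩ := hmod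
  exact ⟨W, hW, levelZero_of_eigenform P N (excSet W P.p N) O hF hW (Finset.Subset.refl _) hf
    h𝔫.ne_top hp𝔫 hcong⟩

end Fermat.Agent.S43.Exit.FreyZero
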