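/-
PROJECT R (S43), THE EXIT E3, glue between `RSide/Spine.exists_prime_T0` and `Exit/OfPoint`
(helper19, spare path): **IF THE TAME GENERATOR GOES TO `1` MODULO AN IDEAL `I`, SO DOES THE WHOLE
INERTIA GROUP.**

`T` a noetherian local ring, `r : G_ℚ →* M₂(T)` adically continuous, `A` a valuation ring of `ℚ̄`,
`r ≡ 1` modulo the maximal ideal on the inertia group `I_A`, `(p : T) ∈ 𝔪_T`, `σ ∈ I_A` a tame
generator (helper21's `TameClause`, written out as in helper25's `RSide/LocalMat`), `I` a proper
ideal of `T` (the prime `𝔭₀` produced by the patching argument) with `r σ ≡ 1` modulo `I`.  Then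
`r s ≡ 1` modulo `I` for every `s ∈ I_A`.

Proof: `RSide/LocalMat.unramified_of_generator_eq_one` over the noetherian local ring `T ⧸ I`
(Krull's intersection theorem there); adic continuity and the residual congruence pass to the
quotient because `T → T ⧸ I` is a local homomorphism.
-/
import Fermat.Agent.S43.RSide.LocalMat

set_option autoImplicit false

noncomputable section

namespace Fermat.Agent.S43.Exit.UnramQuotB

open IsLocalRing Matrix
open Fermat.Agent.CFT.Bridge
open Fermat.Agent.S43.RSide.LocalMat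

variable {T : Type} [CommRing T] [IsLocalRing T]

/-- the quotient of a local ring by a proper ideal is local -/
theorem isLocalRing_quot_of_ne_top (I : Ideal T) (hI : I ≠ ⊤) : IsLocalRing (T ⧸ I) := by
  have : Nontrivial (T ⧸ I) := Ideal.Quotient.nontrivial_iff.mpr hI
  exact IsLocalRing.of_surjective' (Ideal.Quotient.mk I) Ideal.Quotient.mk_surjective

/-- the quotient map of a local ring by a proper ideal maps the maximal ideal into the maximal
ideal -/
theorem map_mk_maximalIdeal_le (I : Ideal T) (hI : I ≠ ⊤) :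
    haveI := isLocalRing_quot_of_ne_top I hI
    (maximalIdeal T).map (Ideal.Quotient.mk I) ≤ maximalIdeal (T ⧸ I) := by
  have := isLocalRing_quot_of_ne_top I hI
  have : IsLocalHom (Ideal.Quotient.mk I) :=
    IsLocalHom.of_surjective (Ideal.Quotient.mk I) Ideal.Quotient.mk_surjective
  exact IsLocalRing.map_maximalIdeal_le (Ideal.Quotient.mk I)

omit [IsLocalRing T] in
/-- the entrywise image of `x - 1` is the image of `x` minus `1` -/
theorem map_sub_one {E : Type} [CommRing E] (ψ : T →+* E) (x : Matrix (Fin 2) (Fin 2) T) :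
    (x - 1).map ψ = x.map ψ - 1 := by
  rw [Matrix.map_sub (f := ψ) (fun a b => map_sub ψ a b), Matrix.map_one ψ (map_zero ψ)
    (map_one ψ)]

/-- adic continuity passes to the push-forward along a homomorphism of local rings mapping the
maximal ideal into the maximal ideal -/
theorem adicCont_push {E : Type} [CommRing E] [IsLocalRing E] (ψ : T →+* E)
    (hψ : (maximalIdeal T).map ψ ≤ maximalIdeal E) (r : GQ →* Matrix (Fin 2) (Fin 2) T)
    (hcont : AdicCont r) : AdicCont (push ψ r) := by
  intro n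
  obtain ⟨L, hLfin, hL⟩ := hcont n
  refine ⟨L, hLfin, fun σ hσ a b => ?_⟩
  have h1 : Cong (maximalIdeal T ^ n) (r σ - 1) := hL σ hσ
  have h3 : (maximalIdeal T ^ n).map ψ ≤ maximalIdeal E ^ n := by
    rw [Ideal.map_pow]
    exact Ideal.pow_right_mono hψ n
  have h4 := (h1.map ψ).mono h3
  rw [map_sub_one] at h4
  exact h4 a b

/-- **the exit, modulo an ideal** : if `r` sends the tame generator to `1` modulo a proper ideal
`I` of the noetherian local ring `T`, it sends the whole inertia group at `A` to `1` modulo `I`. -/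
theorem map_mk_eq_one_of_generator [IsNoetherianRing T] {p : ℕ} (hp : p.Prime)
    (hpT : (p : T) ∈ maximalIdeal T) (I : Ideal T) (hI : I ≠ ⊤)
    {A : ValuationSubring Qbar}
    (r : GQ →* Matrix (Fin 2) (Fin 2) T) (hcont : AdicCont r)
    (hres : ∀ s ∈ A.inertiaSubgroupIn ℚ, Cong (maximalIdeal T) (r s - 1))
    (σ : A.inertiaSubgroupIn ℚ)
    (hσ : ∀ (F : IntermediateField ℚ Qbar) [IsGalois ℚ F] [FiniteDimensional ℚ F] (Γ : Type)
      [Group Γ] (f : A.inertiaSubgroupIn ℚ →* Γ),
      (∀ s : A.inertiaSubgroupIn ℚ, (s : GQ) ∈ F.fixingSubgroup → f s = 1) →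
      IsPGroup p f.range → ∀ s : A.inertiaSubgroupIn ℚ, ∃ m : ℕ, f s = f σ ^ m)
    (h1 : (r (σ : GQ)).map (Ideal.Quotient.mk I) = 1) :
    ∀ s ∈ A.inertiaSubgroupIn ℚ, (r s).map (Ideal.Quotient.mk I) = 1 := by
  have := isLocalRing_quot_of_ne_top I hI
  have hψ := map_mk_maximalIdeal_le I hI
  intro s hs
  have h2 := unramified_of_generator_eq_one (T := T ⧸ I) hp
    (natCast_mem_of_map_le (Ideal.Quotient.mk I) hψ hpT)
    (sep_of_isNoetherianRing (T := T ⧸ I))
    (push (Ideal.Quotient.mk I) r) (adicCont_push (Ideal.Quotient.mk I) hψ r hcont)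
    (push_res (Ideal.Quotient.mk I) hψ A r hres) σ hσ (by rw [push_apply]; exact h1) s hs
  rw [push_apply] at h2
  exact h2

/-- the same in entry form: `r σ - 1` has its entries in `I` ⟹ so has `r s - 1` for all
`s ∈ I_A` -/
theorem cong_of_generator [IsNoetherianRing T] {p : ℕ} (hp : p.Prime)
    (hpT : (p : T) ∈ maximalIdeal T) (I : Ideal T) (hI : I ≠ ⊤)
    {A : ValuationSubring Qbar}
    (r : GQ →* Matrix (Fin 2) (Fin 2) T) (hcont : AdicCont r)
    (hres : ∀ s ∈ A.inertiaSubgroupIn ℚ, Cong (maximalIdeal T) (r s - 1))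
    (σ : A.inertiaSubgroupIn ℚ)
    (hσ : ∀ (F : IntermediateField ℚ Qbar) [IsGalois ℚ F] [FiniteDimensional ℚ F] (Γ : Type)
      [Group Γ] (f : A.inertiaSubgroupIn ℚ →* Γ),
      (∀ s : A.inertiaSubgroupIn ℚ, (s : GQ) ∈ F.fixingSubgroup → f s = 1) →
      IsPGroup p f.range → ∀ s : A.inertiaSubgroupIn ℚ, ∃ m : ℕ, f s = f σ ^ m)
    (h1 : Cong I (r (σ : GQ) - 1)) :
    ∀ s ∈ A.inertiaSubgroupIn ℚ, Cong I (r s - 1) := by
  have key : ∀ x : Matrix (Fin 2) (Fin 2) T,
      Cong I (x - 1) ↔ x.map (Ideal.Quotient.mk I) = 1 := by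
    intro x
    constructor
    · intro h
      have h2 := cong_bot_iff.mp (((h.map (Ideal.Quotient.mk I))).mono
        (le_of_eq (Ideal.map_quotient_self I)))
      rw [map_sub_one, sub_eq_zero] at h2
      exact h2
    · intro h i j
      have h2 : (x - 1).map (Ideal.Quotient.mk I) = 0 := by rw [map_sub_one, h, sub_self]
      have h3 := congrFun (congrFun h2 i) j
      rw [Matrix.map_apply, Matrix.zero_apply, Ideal.Quotient.eq_zero_iff_mem] at h3
      exact h3
  intro s hs
  exact (key _).mpr (map_mk_eq_one_of_generator hp hpT I hI r hcont hres σ hσ ((key _).mp h1) s hs)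

end Fermat.Agent.S43.Exit.UnramQuotB

end
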