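/-
PROJECT R (S43), THE EXIT N6 (helper1), brick (DESC+): `Exit/Desc` WITH TWO RINGS.  The Tate module
is tensored with `O`; the eigenvalues live in ANOTHER ring `R` acting on an abelian group `Λ`, and
`u : Λ →+ O ⊗ T_p J₀(N)` is additive with `T_r (u x) = u (θ r • x)`.  If `u v ≠ 0` for one `v`, if
`θ r ≡ a r` modulo an ideal `𝔪 ∋ p` of `R` and `1 - c` is a unit for `c ∈ 𝔪`, then `(p, T_r - a r)` is
a proper ideal of the Hecke algebra, and `Exit/Desc.exists_eigen_tate_of_ne_top` gives the Tate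
vector.  Neither a domain nor torsion-freeness is needed here.
-/
import Fermat.Agent.S43.Exit.Desc

set_option autoImplicit false
set_option linter.unusedSectionVars false
set_option linter.unusedVariables false
set_option linter.style.haveILetI false

noncomputable section

namespace Fermat.Agent.S43.Exit.DescAdd

open TensorProduct CongruenceSubgroup ModularCurve CuspForm ModularFormClass
open Fermat.Agent.S30.Padic.TateModule Fermat.Agent.S30.Padic.Assembly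
open Fermat.Agent.S30.Arith.TateInputs
open Fermat.Agent.S33.KP.LevelFrame Fermat.Agent.S33.KP.Level
open Fermat.Agent.S43.Exit.Desc

variable {p : ℕ} [Fact p.Prime] {N : ℕ} [NeZero N]

/-- an integer acts on the image of `u` through its image in `R` -/
theorem baseChange_intCast_add (O : Type*) [CommRing O] [Algebra ℤ_[p] O] (R : Type*) [CommRing R]
    (Λ : Type*) [AddCommGroup Λ] [Module R Λ] (u : Λ →+ O ⊗[ℤ_[p]] Tp p (JZero N)) (m : ℤ)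
    (x : Λ) :
    ((m : Module.End ℤ_[p] (Tp p (JZero N)))).baseChange O (u x) = u ((m : R) • x) := by
  rw [baseChange_intCast, LinearMap.smul_apply, Module.End.one_apply, Int.cast_smul_eq_zsmul,
    Int.cast_smul_eq_zsmul, map_zsmul]

/-- every element of the Hecke algebra acts on the image of `u` through a scalar of `R` -/
theorem exists_smul_eq_add (O : Type*) [CommRing O] [Algebra ℤ_[p] O] (R : Type*) [CommRing R]
    (Λ : Type*) [AddCommGroup Λ] [Module R Λ] (u : Λ →+ O ⊗[ℤ_[p]] Tp p (JZero N))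
    (S : Finset ℕ) (hNS : ∀ q : ℕ, q.Prime → q ∣ N → q ∈ S)
    (θ : heckeAlgebra N 2 (↑S : Set ℕ) →+* Module.End ℤ_[p] (Tp p (JZero N)))
    (hθT : ∀ (ℓ : ℕ) (hℓ : ℓ.Prime) (hℓN : ¬ ℓ ∣ N) (hℓS : ℓ ∉ (↑S : Set ℕ)),
      θ (heckeAlgebra.T hℓ hℓN hℓS) = Tp.mapEnd (heckeEnd N (⟨ℓ, hℓ⟩ : Nat.Primes)))
    (θR : ℕ → R)
    (heig : ∀ (ℓ : ℕ) (hℓ : ℓ.Prime), ℓ ∉ S → ∀ x : Λ,
      opVHom p O (JZero N) (heckeEnd N (⟨ℓ, hℓ⟩ : Nat.Primes)) (u x) = u (θR ℓ • x))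
    (t : heckeAlgebra N 2 (↑S : Set ℕ)) :
    ∃ c : R, ∀ x : Λ, (θ t).baseChange O (u x) = u (c • x) := by
  obtain ⟨t, ht⟩ := t
  induction ht using Algebra.adjoin_induction with
  | mem t ht =>
    rcases ht with ⟨ℓ, hℓ, hℓN, hℓS, rfl⟩ | ⟨q, hqN, hq, hqS, rfl⟩
    · refine ⟨θR ℓ, fun x => ?_⟩
      have h1 : (⟨heckeTLin 2 hℓ hℓN, Algebra.subset_adjoin (Or.inl ⟨ℓ, hℓ, hℓN, hℓS, rfl⟩)⟩ :
          heckeAlgebra N 2 (↑S : Set ℕ)) = heckeAlgebra.T hℓ hℓN hℓS := rfl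
      rw [h1, hθT, ← opVHom_apply]
      exact heig ℓ hℓ (by simpa using hℓS) x
    · exact absurd (Finset.mem_coe.mpr (hNS q hq hqN)) hqS
  | algebraMap m =>
    refine ⟨(m : R), fun x => ?_⟩
    have h1 : (⟨algebraMap ℤ _ m, Subalgebra.algebraMap_mem _ m⟩ :
        heckeAlgebra N 2 (↑S : Set ℕ)) = ((m : ℤ) : heckeAlgebra N 2 (↑S : Set ℕ)) := by
      apply Subtype.ext
      simp
    rw [h1, map_intCast]
    exact baseChange_intCast_add O R Λ u m x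
  | add s t hs ht ihs iht =>
    obtain ⟨a, ha⟩ := ihs
    obtain ⟨b, hb⟩ := iht
    refine ⟨a + b, fun x => ?_⟩
    have h1 : (⟨s + t, Subalgebra.add_mem _ hs ht⟩ : heckeAlgebra N 2 (↑S : Set ℕ)) =
        ⟨s, hs⟩ + ⟨t, ht⟩ := rfl
    rw [h1, map_add, LinearMap.baseChange_add, LinearMap.add_apply, ha, hb, add_smul, map_add]
  | mul s t hs ht ihs iht =>
    obtain ⟨a, ha⟩ := ihs
    obtain ⟨b, hb⟩ := iht
    refine ⟨a * b, fun x => ?_⟩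
    have h1 : (⟨s * t, Subalgebra.mul_mem _ hs ht⟩ : heckeAlgebra N 2 (↑S : Set ℕ)) =
        ⟨s, hs⟩ * ⟨t, ht⟩ := rfl
    rw [h1, map_mul, Module.End.mul_eq_comp, LinearMap.baseChange_comp, LinearMap.comp_apply, hb,
      ha, smul_smul]

/-- **the ideal `(p, T_ℓ - a ℓ)` is proper** (two rings) -/
theorem span_genSet_ne_top_add (O : Type*) [CommRing O] [Algebra ℤ_[p] O] (R : Type*)
    [CommRing R] (𝔪 : Ideal R) (h𝔪 : ∀ c ∈ 𝔪, IsUnit (1 - c)) (hp𝔪 : (p : R) ∈ 𝔪)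
    (S : Finset ℕ) (hNS : ∀ q : ℕ, q.Prime → q ∣ N → q ∈ S) (a : ℕ → ℤ) (θR : ℕ → R)
    (θ : heckeAlgebra N 2 (↑S : Set ℕ) →+* Module.End ℤ_[p] (Tp p (JZero N)))
    (hθT : ∀ (ℓ : ℕ) (hℓ : ℓ.Prime) (hℓN : ¬ ℓ ∣ N) (hℓS : ℓ ∉ (↑S : Set ℕ)),
      θ (heckeAlgebra.T hℓ hℓN hℓS) = Tp.mapEnd (heckeEnd N (⟨ℓ, hℓ⟩ : Nat.Primes)))
    (Λ : Type*) [AddCommGroup Λ] [Module R Λ] (u : Λ →+ O ⊗[ℤ_[p]] Tp p (JZero N))
    (v : Λ) (hv : u v ≠ 0)
    (heig : ∀ (ℓ : ℕ) (hℓ : ℓ.Prime), ℓ ∉ S → ∀ x : Λ,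
      opVHom p O (JZero N) (heckeEnd N (⟨ℓ, hℓ⟩ : Nat.Primes)) (u x) = u (θR ℓ • x))
    (hcong : ∀ ℓ : ℕ, ℓ.Prime → ℓ ∉ S → θR ℓ - ((a ℓ : ℤ) : R) ∈ 𝔪) :
    Ideal.span (genSet p N S a) ≠ ⊤ := by
  have hex := exists_smul_eq_add O R Λ u S hNS θ hθT θR heig
  -- the elements acting on the image of `u` through a scalar of `𝔪`
  let I' : Ideal (heckeAlgebra N 2 (↑S : Set ℕ)) :=
    { carrier := {t | ∃ c ∈ 𝔪, ∀ x : Λ, (θ t).baseChange O (u x) = u (c • x)}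
      zero_mem' := ⟨0, 𝔪.zero_mem, fun x => by
        rw [map_zero, LinearMap.baseChange_zero, zero_smul, map_zero]; rfl⟩
      add_mem' := by
        rintro s t ⟨c, hc, hs⟩ ⟨d, hd, ht⟩
        exact ⟨c + d, 𝔪.add_mem hc hd, fun x => by
          rw [map_add, LinearMap.baseChange_add, LinearMap.add_apply, hs, ht, add_smul, map_add]⟩
      smul_mem' := by
        rintro s t ⟨c, hc, ht⟩
        obtain ⟨d, hd⟩ := hex s
        exact ⟨d * c, 𝔪.mul_mem_left d hc, fun x => by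
          rw [smul_eq_mul, map_mul, Module.End.mul_eq_comp, LinearMap.baseChange_comp,
            LinearMap.comp_apply, ht, hd, smul_smul]⟩ }
  have hGI : ∀ t ∈ genSet p N S a, t ∈ I' := by
    rintro t (rfl | ⟨ℓ, hℓ, hℓN, hℓS, rfl⟩)
    · refine ⟨(p : R), hp𝔪, fun x => ?_⟩
      have h3 : ((p : ℕ) : heckeAlgebra N 2 (↑S : Set ℕ)) =
          (((p : ℤ)) : heckeAlgebra N 2 (↑S : Set ℕ)) := by push_cast; rfl
      rw [h3, map_intCast, baseChange_intCast_add O R Λ u (p : ℤ) x]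
      push_cast
      rfl
    · have hℓS' : ℓ ∉ S := by simpa using hℓS
      refine ⟨θR ℓ - ((a ℓ : ℤ) : R), hcong ℓ hℓ hℓS', fun x => ?_⟩
      rw [map_sub, map_intCast, hθT, LinearMap.baseChange_sub, LinearMap.sub_apply,
        baseChange_intCast_add O R Λ u (a ℓ) x, ← opVHom_apply, heig ℓ hℓ hℓS' x, sub_smul,
        map_sub]
  intro htop
  have h1 : Ideal.span (genSet p N S a) ≤ I' := Ideal.span_le.mpr fun t ht => hGI t ht
  obtain ⟨c, hc, h3⟩ : (1 : heckeAlgebra N 2 (↑S : Set ℕ)) ∈ I' :=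
    h1 (htop ▸ Submodule.mem_top)
  obtain ⟨b, hb⟩ := (h𝔪 c hc).exists_right_inv
  apply hv
  have h4 := h3 (b • v)
  rw [map_one, Module.End.one_eq_id, LinearMap.baseChange_id, LinearMap.id_apply] at h4
  have h5 : v = b • v - c • b • v := by
    have h6 : b • v - c • b • v = ((1 - c) * b) • v := by
      rw [sub_mul, one_mul, sub_smul, mul_smul]
    rw [h6, hb, one_smul]
  rw [h5, map_sub, ← h4, sub_self]

/-- **(DESC+)**: the Tate vector, from a lattice with eigenvalues in another ring -/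
theorem exists_eigen_tate_of_lattice (O : Type*) [CommRing O] [Algebra ℤ_[p] O] (R : Type*)
    [CommRing R] (𝔪 : Ideal R) (h𝔪 : ∀ c ∈ 𝔪, IsUnit (1 - c)) (hp𝔪 : (p : R) ∈ 𝔪)
    (S : Finset ℕ) (hNS : ∀ q : ℕ, q.Prime → q ∣ N → q ∈ S) (a : ℕ → ℤ) (θR : ℕ → R)
    (Λ : Type*) [AddCommGroup Λ] [Module R Λ] (u : Λ →+ O ⊗[ℤ_[p]] Tp p (JZero N))
    (v : Λ) (hv : u v ≠ 0)
    (heig : ∀ (ℓ : ℕ) (hℓ : ℓ.Prime), ℓ ∉ S → ∀ x : Λ,
      opVHom p O (JZero N) (heckeEnd N (⟨ℓ, hℓ⟩ : Nat.Primes)) (u x) = u (θR ℓ • x))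
    (hcong : ∀ ℓ : ℕ, ℓ.Prime → ℓ ∉ S → θR ℓ - ((a ℓ : ℤ) : R) ∈ 𝔪) :
    ∃ x : Tp p (JZero N), x.1 1 ≠ 0 ∧ ∀ (ℓ : ℕ) (hℓ : ℓ.Prime), ℓ ∉ S →
      heckeOperatorBar N ⟨ℓ, hℓ⟩ (x.1 1) = a ℓ • x.1 1 := by
  obtain ⟨θ, hθT, hθinj⟩ := Fermat.Agent.S44.Ent.Theta.exists_theta p N S
  obtain ⟨n', hn'⟩ := hθinj 1
  exact exists_eigen_tate_of_ne_top S hNS a θ hθT n' hn'
    (span_genSet_ne_top_add O R 𝔪 h𝔪 hp𝔪 S hNS a θR θ hθT Λ u v hv heig hcong)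

end Fermat.Agent.S43.Exit.DescAdd
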